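import Mathlib.NumberTheory.ModularForms.QExpansion
import Mathlib.NumberTheory.ModularForms.BoundedAtCusp
import Mathlib.RingTheory.PowerSeries.Expand
import Fermat.Prelude.Thm_UpperHalfPlane_qExpansion_coeff_nat_mul

/-!
# Functions on the upper half plane given by a convergent power series in `𝕢 h τ`
-/

set_option autoImplicit false

noncomputable section

open Filter UpperHalfPlane Complex Topology Function
open scoped Manifold Real ENNReal

namespace Fermat.Agent.EIS

local notation "𝕢" => Function.Periodic.qParam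

/-- `f` is the sum of the power series `S` in `𝕢 h τ`, everywhere on the upper half plane. -/
def IsQSer (h : ℝ) (f : ℍ → ℂ) (S : PowerSeries ℂ) : Prop :=
  ∀ τ : ℍ, HasSum (fun n : ℕ ↦ S.coeff n * 𝕢 h τ ^ n) (f τ)

variable {h : ℝ} {f g : ℍ → ℂ} {S S' : PowerSeries ℂ}

theorem IsQSer.isBoundedAtImInfty (hh : 0 < h) (hf : IsQSer h f S) : IsBoundedAtImInfty f :=
  UpperHalfPlane.isBoundedAtImInfty_of_hasSum_qExpansion hh (c := fun n ↦ S.coeff n)
    fun τ ↦ by simpa [smul_eq_mul] using hf τ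

theorem IsQSer.periodic (hh : 0 < h) (hf : IsQSer h f S) : Periodic (f ∘ ofComplex) h := by
  intro w
  by_cases hw : 0 < w.im
  · have hw' : 0 < (w + h).im := by simpa using hw
    simp only [comp_apply, ofComplex_apply_of_im_pos hw, ofComplex_apply_of_im_pos hw']
    refine (hf ⟨w + h, hw'⟩).unique ?_
    have hq : 𝕢 h (w + h) = 𝕢 h w := by
      have hh' : (h : ℂ) ≠ 0 := by simpa using hh.ne'
      simp only [Periodic.qParam]
      rw [show 2 * π * Complex.I * (w + h) / (h : ℂ) = 2 * π * Complex.I * w / h + 2 * π * Complex.I by field_simp,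
        Complex.exp_add, Complex.exp_two_pi_mul_I, mul_one]
    simpa [hq] using hf ⟨w, hw⟩
  · have hw' : (w + h).im ≤ 0 := by simpa using not_lt.mp hw
    simp [ofComplex_apply_of_im_nonpos hw', ofComplex_apply_of_im_nonpos (not_lt.mp hw)]

/-- The function on the unit disc summing the series. -/
def discSum (S : PowerSeries ℂ) : ℂ → ℂ :=
  (FormalMultilinearSeries.ofScalars ℂ fun n ↦ S.coeff n).sum

theorem IsQSer.radius (hh : 0 < h) (hf : IsQSer h f S) :
    1 ≤ (FormalMultilinearSeries.ofScalars ℂ fun n ↦ S.coeff n).radius := by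
  refine le_of_forall_lt_imp_le_of_dense fun r hr ↦ ?_
  rcases eq_or_ne r 0 with rfl | hr'
  · simp
  lift r to NNReal using hr.ne_top
  have hr1 : ‖((r : ℝ) : ℂ)‖ < 1 := by simpa using hr
  have hr0 : ((r : ℝ) : ℂ) ≠ 0 := by simpa using hr'
  let τ : ℍ := ⟨Periodic.invQParam h ((r : ℝ) : ℂ),
    Periodic.im_invQParam_pos_of_norm_lt_one hh hr1 hr0⟩
  have key : 𝕢 h (τ : ℂ) = ((r : ℝ) : ℂ) := Periodic.qParam_right_inv hh.ne' hr0
  let : FiniteDimensional ℝ ℂ := basisOneI.finiteDimensional_of_finite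
  apply FormalMultilinearSeries.le_radius_of_summable
  have := (hf τ).summable.norm
  simpa [key, mul_comm] using this

theorem IsQSer.analyticOn_discSum (hh : 0 < h) (hf : IsQSer h f S) :
    AnalyticOnNhd ℂ (discSum S) (Metric.ball 0 1) := by
  have h1 := (FormalMultilinearSeries.ofScalars ℂ fun n ↦ S.coeff n).hasFPowerSeriesOnBall
    (lt_of_lt_of_le one_pos (hf.radius hh))
  intro x hx
  apply h1.analyticAt_of_mem
  exact Metric.mem_eball.mpr (lt_of_lt_of_le (by
    rw [edist_dist]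
    exact ENNReal.ofReal_lt_one.mpr (Metric.mem_ball.mp hx)) (hf.radius hh))

theorem IsQSer.eq_discSum (_hh : 0 < h) (hf : IsQSer h f S) (τ : ℍ) :
    f τ = discSum S (𝕢 h τ) := by
  rw [discSum, FormalMultilinearSeries.sum, ← (hf τ).tsum_eq]
  simp [mul_comm]

theorem IsQSer.mdiff (hh : 0 < h) (hf : IsQSer h f S) : MDiff f := by
  rw [UpperHalfPlane.mdifferentiable_iff]
  have hd : DifferentiableOn ℂ (fun z : ℂ ↦ discSum S (𝕢 h z)) upperHalfPlaneSet := by
    intro z hz
    refine DifferentiableAt.differentiableWithinAt ?_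
    refine DifferentiableAt.comp z ((hf.analyticOn_discSum hh) _ ?_).differentiableAt ?_
    · simpa using Periodic.norm_qParam_lt_one hh hz
    · exact (Periodic.differentiable_qParam (h := h)).differentiableAt
  refine hd.congr fun z hz ↦ ?_
  simp [ofComplex_apply_of_im_pos hz, hf.eq_discSum hh]

theorem IsQSer.analyticAt_cuspFunction (hh : 0 < h) (hf : IsQSer h f S) :
    AnalyticAt ℂ (cuspFunction h f) 0 :=
  analyticAt_cuspFunction_zero hh (hf.periodic hh) (hf.mdiff hh) (hf.isBoundedAtImInfty hh)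

theorem IsQSer.qExpansion_eq (hh : 0 < h) (hf : IsQSer h f S) : qExpansion h f = S := by
  ext n
  have h1 := (hasFPowerSeriesOnBall_cuspFunction hh (hf.analyticAt_cuspFunction hh)
    (c := fun n ↦ S.coeff n) (fun τ ↦ by simpa [smul_eq_mul] using hf τ)).hasFPowerSeriesAt
  have h2 := (hf.analyticAt_cuspFunction hh).hasFPowerSeriesAt
  have h3 := congr_arg (FormalMultilinearSeries.coeff · n) (h1.eq_formalMultilinearSeries h2)
  simp [qExpansion_coeff, div_eq_mul_inv, mul_comm] at h3 ⊢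
  exact h3.symm

theorem IsQSer.unique (hh : 0 < h) (hf : IsQSer h f S) (hf' : IsQSer h f S') : S = S' :=
  (hf.qExpansion_eq hh).symm.trans (hf'.qExpansion_eq hh)

theorem isQSer_qExpansion (hh : 0 < h) (hper : Periodic (f ∘ ofComplex) h) (hhol : MDiff f)
    (hbdd : IsBoundedAtImInfty f) : IsQSer h f (qExpansion h f) := fun τ ↦ by
  simpa [smul_eq_mul] using UpperHalfPlane.hasSum_qExpansion hh hper hhol hbdd τ

theorem IsQSer.congr (hf : IsQSer h f S) {f' : ℍ → ℂ} (hfg : ∀ τ, f τ = f' τ) :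
    IsQSer h f' S := fun τ ↦ hfg τ ▸ hf τ

theorem IsQSer.add (hf : IsQSer h f S) (hg : IsQSer h g S') : IsQSer h (f + g) (S + S') :=
  fun τ ↦ by simpa [add_mul] using (hf τ).add (hg τ)

theorem IsQSer.smul (a : ℂ) (hf : IsQSer h f S) : IsQSer h (a • f) (a • S) :=
  fun τ ↦ by simpa [mul_assoc] using (hf τ).mul_left a

theorem isQSer_zero : IsQSer h 0 0 := fun τ ↦ by simp [hasSum_zero]

theorem isQSer_const (a : ℂ) : IsQSer h (fun _ ↦ a) (PowerSeries.C a) := fun τ ↦ by
  convert hasSum_ite_eq 0 a using 1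
  funext n
  rw [PowerSeries.coeff_C]
  split_ifs with hn <;> simp [hn]

theorem IsQSer.sum {ι : Type*} (s : Finset ι) {F : ι → ℍ → ℂ} {T : ι → PowerSeries ℂ}
    (hF : ∀ i ∈ s, IsQSer h (F i) (T i)) : IsQSer h (∑ i ∈ s, F i) (∑ i ∈ s, T i) := fun τ ↦ by
  simpa [Finset.sum_mul] using hasSum_sum fun i hi ↦ hF i hi τ

theorem IsQSer.mul (hh : 0 < h) (hf : IsQSer h f S) (hg : IsQSer h g S') :
    IsQSer h (f * g) (S * S') := by
  have := isQSer_qExpansion hh (f := f * g) ((hf.periodic hh).mul (hg.periodic hh))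
    ((hf.mdiff hh).mul (hg.mdiff hh))
    ((hf.isBoundedAtImInfty hh).mul (hg.isBoundedAtImInfty hh))
  rwa [UpperHalfPlane.qExpansion_mul (hf.analyticAt_cuspFunction hh)
    (hg.analyticAt_cuspFunction hh), hf.qExpansion_eq hh, hg.qExpansion_eq hh] at this

theorem IsQSer.tendsto (hh : 0 < h) (hf : IsQSer h f S) :
    Tendsto f atImInfty (𝓝 (S.coeff 0)) := by
  have h0 : discSum S 0 = S.coeff 0 := by
    show FormalMultilinearSeries.ofScalarsSum (fun n ↦ S.coeff n) (0 : ℂ) = _
    simp [FormalMultilinearSeries.ofScalarsSum_zero]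
  have : Tendsto (fun τ : ℍ ↦ discSum S (𝕢 h τ)) atImInfty (𝓝 (discSum S 0)) :=
    ((hf.analyticOn_discSum hh) 0 (by simp)).continuousAt.tendsto.comp
      (qParam_tendsto_atImInfty hh)
  simpa [← hf.eq_discSum hh, h0] using this

/-- If the first `a` coefficients vanish one can divide by `𝕢 h τ ^ a`. -/
theorem IsQSer.div_pow (hf : IsQSer h f S) {a : ℕ} (ha : ∀ n < a, S.coeff n = 0) :
    IsQSer h (fun τ ↦ f τ / 𝕢 h τ ^ a) (PowerSeries.mk fun n ↦ S.coeff (n + a)) := fun τ ↦ by
  have h1 := hf τ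
  rw [← hasSum_nat_add_iff' a, Finset.sum_eq_zero
    (fun n hn ↦ by simp [ha n (Finset.mem_range.mp hn)]), sub_zero] at h1
  have h2 := h1.div_const (𝕢 h τ ^ a)
  refine h2.congr_fun fun n ↦ ?_
  simp [pow_add, ← mul_assoc, Periodic.qParam_ne_zero]

/-- Scaling the variable by a natural number. -/
theorem IsQSer.comp_mul (hf : IsQSer h f S) {p : ℕ} (hp : p ≠ 0) {m : ℍ → ℍ}
    (hm : ∀ τ : ℍ, (m τ : ℂ) = p * τ) :
    IsQSer h (f ∘ m) (PowerSeries.expand p hp S) := fun τ ↦ by
  have hq : 𝕢 h (m τ : ℂ) = 𝕢 h τ ^ p := by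
    rw [Periodic.qParam, Periodic.qParam, ← Complex.exp_nat_mul, hm]
    ring_nf
  have h1 := hf (m τ)
  rw [hq] at h1
  have hinj : Function.Injective (fun n : ℕ ↦ p * n) := mul_right_injective₀ hp
  refine (hinj.hasSum_iff ?_).mp ?_
  · intro n hn
    have : ¬ p ∣ n := fun ⟨k, hk⟩ ↦ hn ⟨k, hk.symm⟩
    simp [PowerSeries.coeff_expand_of_not_dvd _ _ _ this]
  · refine h1.congr_fun fun n ↦ ?_
    simp [PowerSeries.coeff_expand_mul, pow_mul]

/-- A series in `𝕢 (M * h) τ` of an `h`-periodic function only involves multiples of `M`. -/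
theorem IsQSer.descend (hh : 0 < h) {M : ℕ} (hM : 0 < M) (hf : IsQSer (M * h) f S)
    (hper : Periodic (f ∘ ofComplex) h) :
    IsQSer h f (PowerSeries.mk fun n ↦ S.coeff (M * n)) := by
  have hMh : 0 < (M : ℝ) * h := by positivity
  have h1 := isQSer_qExpansion hh hper (hf.mdiff hMh) (hf.isBoundedAtImInfty hMh)
  convert h1
  ext n
  rw [PowerSeries.coeff_mk, ← hf.qExpansion_eq hMh,
    UpperHalfPlane.qExpansion_coeff_nat_mul hh hper (hf.mdiff hMh) (hf.isBoundedAtImInfty hMh) hM]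
  simp [hM]

end Fermat.Agent.EIS

end
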