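import Fermat.Agent.EIS.ProductForm
import Fermat.Prelude.Def_ModularCurve_ModularUnit
import Fermat.Prelude.Def_FLTPrelim_Modularity
import Mathlib.NumberTheory.LSeries.PrimesInAP
import Mathlib.NumberTheory.LegendreSymbol.QuadraticReciprocity

/-!
# An integral cusp form congruent to the Eisenstein series modulo the Eisenstein numerator
-/

set_option autoImplicit false
set_option linter.unusedSectionVars false

noncomputable section

open Filter UpperHalfPlane Topology ModularGroup CongruenceSubgroup ModularCurve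
open scoped Real MatrixGroups ModularForm Manifold

namespace Fermat.Agent.EIS

variable {p : ℕ} [hp : Fact p.Prime]

theorem eisensteinNumerator_mul_gcd : eisensteinNumerator p * Nat.gcd (p - 1) 12 = p - 1 :=
  Nat.div_mul_cancel (Nat.gcd_dvd_left _ _)

theorem coprime_twelve_div_gcd :
    (12 / Nat.gcd (p - 1) 12).Coprime (eisensteinNumerator p) :=
  (Nat.coprime_div_gcd_div_gcd (Nat.gcd_pos_of_pos_right _ (by norm_num))).symm

/-- The auxiliary prime. -/
theorem exists_auxPrime (h1 : 1 < eisensteinNumerator p) :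
    ∃ r : ℕ, r.Prime ∧ r % 4 = 3 ∧ p < r ∧ (p : ZMod r) ^ (r / 2) = -1 ∧
      (r / 2 * r ^ 3).Coprime (eisensteinNumerator p) := by
  set n := eisensteinNumerator p with hn
  have hp2 : p ≠ 2 := by
    intro h
    subst h
    simp [hn, eisensteinNumerator] at h1
  have hpodd : Odd p := hp.out.odd_of_ne_two hp2
  have hnd : n ∣ p - 1 := eisensteinNumerator_dvd p
  set m := ordCompl[2] n with hm
  have hmodd : Odd m := by
    rw [← Nat.not_even_iff_odd, even_iff_two_dvd]
    exact Nat.not_dvd_ordCompl Nat.prime_two (by omega)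
  have hmd : m ∣ n := Nat.ordCompl_dvd n 2
  have hmp : m.Coprime p := by
    rw [Nat.coprime_comm, hp.out.coprime_iff_not_dvd]
    intro h
    have := Nat.le_of_dvd (by have := hp.out.two_le; omega) ((h.trans hmd).trans hnd)
    have := hp.out.two_le
    omega
  have h4m : Nat.Coprime 4 m :=
    (Nat.Coprime.pow_left 2 ((Nat.prime_two.coprime_iff_not_dvd).mpr
      (by rw [← even_iff_two_dvd, Nat.not_even_iff_odd]; exact hmodd)))
  have h4p : Nat.Coprime 4 p :=
    (Nat.Coprime.pow_left 2 ((Nat.coprime_primes Nat.prime_two hp.out).mpr (Ne.symm hp2)))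
  obtain ⟨c, hc0, hcsq⟩ : ∃ c : ZMod p, c ≠ 0 ∧ (IsSquare c ↔ p % 4 = 3) := by
    by_cases h3 : p % 4 = 3
    · exact ⟨1, one_ne_zero, by simp [h3]⟩
    · obtain ⟨c, hc⟩ := FiniteField.exists_nonsquare (F := ZMod p)
        (by rwa [ZMod.ringChar_zmod_n])
      exact ⟨c, fun h ↦ hc (h ▸ IsSquare.zero), by simp [hc, h3]⟩
  obtain ⟨a1, ha1, ha2⟩ := Nat.chineseRemainder h4m 3 2
  obtain ⟨a, hb1, hb2⟩ := Nat.chineseRemainder (h4p.mul_left hmp) a1 c.val
  have ha4 : a ≡ 3 [MOD 4] := (hb1.of_dvd (dvd_mul_right 4 m)).trans ha1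
  have ham : a ≡ 2 [MOD m] := (hb1.of_dvd (dvd_mul_left m 4)).trans ha2
  have hco : a.Coprime (4 * m * p) := by
    refine Nat.Coprime.mul_right (Nat.Coprime.mul_right ?_ ?_) ?_
    · rw [Nat.Coprime, ha4.gcd_eq]; rfl
    · rw [Nat.Coprime, ham.gcd_eq]
      exact (Nat.prime_two.coprime_iff_not_dvd).mpr
        (by rw [← even_iff_two_dvd, Nat.not_even_iff_odd]; exact hmodd)
    · rw [Nat.Coprime, hb2.gcd_eq]
      refine (hp.out.coprime_iff_not_dvd.mpr fun h ↦ hc0 ?_).symm
      rw [← ZMod.natCast_zmod_val c]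
      exact (ZMod.natCast_eq_zero_iff _ _).mpr h
  obtain ⟨r, hrlt, hr, hra⟩ := Nat.forall_exists_prime_gt_and_modEq (max p n)
    (by simp [hp.out.ne_zero, hmodd.pos.ne']) hco
  haveI : Fact r.Prime := ⟨hr⟩
  have hr4 : r % 4 = 3 := (hra.of_dvd (by rw [mul_assoc]; exact dvd_mul_right 4 _)).trans ha4
  have hrm : r ≡ 2 [MOD m] :=
    (hra.of_dvd ((dvd_mul_left m 4).trans (dvd_mul_right _ p))).trans ham
  have hrp : (r : ZMod p) = c := by
    rw [← ZMod.natCast_zmod_val c, ZMod.natCast_eq_natCast_iff]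
    exact (hra.of_dvd (dvd_mul_left p _)).trans hb2
  have hpr : p < r := lt_of_le_of_lt (le_max_left _ _) hrlt
  have hsq : ¬ IsSquare (p : ZMod r) := by
    by_cases h3 : p % 4 = 3
    · exact (ZMod.exists_sq_eq_prime_iff_of_mod_four_eq_three h3 hr4 hpr.ne).mp
        (hrp ▸ hcsq.mpr h3)
    · have hp1 : p % 4 = 1 := by
        obtain ⟨j, hj⟩ := hpodd
        omega
      rw [← ZMod.exists_sq_eq_prime_iff_of_mod_four_eq_one hp1 (by omega), hrp]
      exact fun h ↦ h3 (hcsq.mp h)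
  have hp0 : (p : ZMod r) ≠ 0 := by
    rw [Ne, ZMod.natCast_eq_zero_iff]
    exact fun h ↦ absurd (Nat.le_of_dvd hp.out.pos h) (by omega)
  refine ⟨r, hr, hr4, hpr, (ZMod.pow_div_two_eq_neg_one_or_one r hp0).resolve_left
    fun h ↦ hsq ((ZMod.euler_criterion r hp0).mpr h), ?_⟩
  have hnr : ¬ r ∣ n := fun h ↦ by
    have := Nat.le_of_dvd (by omega) h
    have := le_max_right p n
    omega
  refine Nat.Coprime.mul_left ?_ ((hr.coprime_iff_not_dvd.mpr hnr).pow_left 3)
  rw [← Nat.ordProj_mul_ordCompl_eq_self n 2]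
  refine Nat.Coprime.mul_right (Nat.Coprime.pow_right _ ?_) ?_
  · rw [Nat.coprime_comm, Nat.prime_two.coprime_iff_not_dvd]
    omega
  · have h1' : 2 * (r / 2) + 1 ≡ 1 + 1 [MOD m] := by
      rwa [show 2 * (r / 2) + 1 = r by omega]
    have h2 : 2 * (r / 2) ≡ 1 [MOD m] := Nat.ModEq.add_right_cancel' 1 h1'
    have h3 : (2 * (r / 2)).Coprime m := by rw [Nat.Coprime, h2.gcd_eq, Nat.gcd_one_left]
    exact h3.coprime_mul_left

/-- An integral cusp form congruent to a unit multiple of the Eisenstein series. -/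
theorem exists_congruent_cuspForm (h1 : 1 < eisensteinNumerator p) :
    ∃ (f : CuspForm (Gamma0 p) 2) (u : ℕ) (a : ℕ → ℤ), u.Coprime (eisensteinNumerator p) ∧
      (∀ m, ModularFormClass.qCoeff f m = a m) ∧
      ∀ m, m ≠ 0 → (a m : ZMod (eisensteinNumerator p)) =
        (u : ZMod (eisensteinNumerator p)) * (sigmaPrime p m : ZMod (eisensteinNumerator p)) := by
  obtain ⟨r, hr, hr4, hpr, hph, hco⟩ := exists_auxPrime h1
  haveI : Fact r.Prime := ⟨hr⟩
  set n := eisensteinNumerator p with hn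
  set h := r / 2 with hh'
  have hh : r = 2 * h + 1 := by omega
  have hr2 : r ≠ 2 := by omega
  have hp0 : (p : ZMod r) ≠ 0 := by
    rw [Ne, ZMod.natCast_eq_zero_iff]
    exact fun h ↦ absurd (Nat.le_of_dvd hp.out.pos h) (by omega)
  obtain ⟨g, hg⟩ := exists_prodForm_qSer hr2 hp0 hh hph
  set t := 12 / Nat.gcd (p - 1) 12 with ht
  set u := t * (h * r ^ 3) with hu
  set a : ℕ → ℤ := fun m ↦ if m = 0 then 0 else (u : ℤ) * sigmaPrime p m - (n : ℤ) * g m with ha
  set F : ℍ → ℂ := (u : ℂ) • eisE p + (-(n : ℂ) / 8) • prodForm r p h with hF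
  have hser : IsQSer 1 F (PowerSeries.mk fun m ↦ (a m : ℂ)) := by
    have h' := ((isQSer_eisE p).smul (u : ℂ)).add (hg.smul (-(n : ℂ) / 8))
    convert h' using 1
    ext m
    simp only [PowerSeries.coeff_mk, map_add, PowerSeries.coeff_smul, smul_eq_mul, eisESer, ha]
    rcases eq_or_ne m 0 with rfl | hm
    · have e1 : (n : ℂ) * (Nat.gcd (p - 1) 12 : ℕ) = (p : ℂ) - 1 := by
        rw [← Nat.cast_mul, eisensteinNumerator_mul_gcd, Nat.cast_sub hp.out.one_le, Nat.cast_one]
      have e2 : (t : ℂ) * (Nat.gcd (p - 1) 12 : ℕ) = 12 := by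
        rw [← Nat.cast_mul, ht, Nat.div_mul_cancel (Nat.gcd_dvd_right _ _)]
        norm_num
      simp only [if_true, hu, Nat.cast_mul, Nat.cast_pow, Int.cast_zero]
      linear_combination ((h : ℂ) * (r : ℂ) ^ 3 * t / 24) * e1 -
        ((h : ℂ) * (r : ℂ) ^ 3 * n / 24) * e2
    · simp only [if_neg hm]
      push_cast
      ring
  have hinv : ∀ γ ∈ Gamma0 p, F ∣[(2 : ℤ)] γ = F := fun γ hγ ↦ by
    rw [hF, SlashAction.add_slash, ModularForm.SL_smul_slash, ModularForm.SL_smul_slash,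
      eisE_slash p γ hγ, prodForm_slash hp0 γ hγ]
  have hmd : MDiff F := hser.mdiff one_pos
  have hzero : IsZeroAtImInfty F := by
    have := hser.tendsto one_pos
    simpa [ha, IsZeroAtImInfty, ZeroAtFilter] using this
  obtain ⟨L, hL⟩ := tendsto_prodForm_slash_S hr2 hp0 hh hph
  have hS : Tendsto (F ∣[(2 : ℤ)] S) atImInfty
      (𝓝 ((u : ℂ) * (((1 : ℂ) / p - 1) / 24) + (-(n : ℂ) / 8) * L)) := by
    rw [hF, SlashAction.add_slash, ModularForm.SL_smul_slash, ModularForm.SL_smul_slash]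
    exact ((tendsto_eisE_slash_S p).const_mul _).add (hL.const_mul _)
  have hL0 := tendsto_slash_S_zero hinv hmd hzero hS
  have hzeroS : IsZeroAtImInfty (F ∣[(2 : ℤ)] S) := by
    rw [hL0] at hS
    exact hS
  refine ⟨gamma0CuspForm F 2 hinv hmd hzero hzeroS, u, a, ?_, fun m ↦ ?_, fun m hm ↦ ?_⟩
  · exact Nat.Coprime.mul_left coprime_twelve_div_gcd hco
  · show (qExpansion 1 F).coeff m = _
    rw [hser.qExpansion_eq one_pos, PowerSeries.coeff_mk]
  · simp [ha, hm]

end Fermat.Agent.EIS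

end
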