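import Mathlib.NumberTheory.ModularForms.LevelOne.DimensionFormula
import Mathlib.NumberTheory.ModularForms.CongruenceSubgroups
import Mathlib.NumberTheory.ModularForms.BoundedAtCusp
import Mathlib.NumberTheory.ModularForms.ArithmeticSubgroups

/-!
# Building modular forms of level one and of prime level from functions
-/

set_option autoImplicit false

noncomputable section

open Filter UpperHalfPlane ModularGroup CongruenceSubgroup Topology Matrix.SpecialLinearGroup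
open scoped Manifold MatrixGroups ModularForm OnePoint

namespace Fermat.Agent.EIS

variable {f : ℍ → ℂ} {k : ℤ}

/-- A modular form of level one from a function. -/
def levelOneForm (hinv : ∀ γ : SL(2, ℤ), f ∣[k] γ = f) (hhol : MDiff f)
    (hbdd : IsBoundedAtImInfty f) : ModularForm 𝒮ℒ k where
  toFun := f
  slash_action_eq' := by
    rintro _ ⟨γ, rfl⟩
    exact hinv γ
  holo' := hhol
  bdd_at_cusps' {c} hc := by
    rw [OnePoint.isBoundedAt_iff_forall_SL2Z hc]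
    exact fun γ _ ↦ by rw [hinv γ]; exact hbdd

theorem levelOne_weight_zero_eq_const (hinv : ∀ γ : SL(2, ℤ), f ∣[(0 : ℤ)] γ = f) (hhol : MDiff f)
    (hbdd : IsBoundedAtImInfty f) : ∃ c : ℂ, ∀ z, f z = c := by
  obtain ⟨c, hc⟩ := ModularFormClass.levelOne_weight_zero_const (levelOneForm hinv hhol hbdd)
  exact ⟨c, congr_fun hc⟩

theorem levelOne_weight_two_eq_zero (hinv : ∀ γ : SL(2, ℤ), f ∣[(2 : ℤ)] γ = f) (hhol : MDiff f)
    (hbdd : IsBoundedAtImInfty f) : f = 0 :=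
  congrArg DFunLike.coe
    ((rank_zero_iff_forall_zero.mp ModularForm.levelOne_weight_two_rank_zero) (levelOneForm hinv hhol hbdd))

theorem mapGL_T_zpow_lower (j : ℤ) :
    ((mapGL ℝ (T ^ j : SL(2, ℤ)) : GL (Fin 2) ℝ) 1 0 : ℝ) = 0 := by
  rw [mapGL_coe_matrix]
  simp [-map_zpow, coe_T_zpow]

theorem tendsto_slash_T_zpow {L : ℂ} (hf : Tendsto f atImInfty (𝓝 L)) (j : ℤ) :
    Tendsto (f ∣[k] (T ^ j : SL(2, ℤ))) atImInfty (𝓝 L) := by
  have h10 := mapGL_T_zpow_lower j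
  have h1 := hf.comp (UpperHalfPlane.tendsto_smul_atImInfty h10)
  refine h1.congr fun z ↦ ?_
  simp [-map_zpow, ModularForm.SL_slash_apply, UpperHalfPlane.denom, coe_T_zpow, sl_moeb]
  rfl

theorem mdiff_slash_SL (hf : MDiff f) (γ : SL(2, ℤ)) : MDiff (f ∣[k] γ) := by
  rw [ModularForm.SL_slash]
  exact hf.slash k _

section prime

variable {p : ℕ} [hp : Fact p.Prime]

theorem ST_mem_Gamma0 {j j' : ℤ} (h : (j : ZMod p) = (j' : ZMod p)) :
    (S * T ^ j) * (S * T ^ j')⁻¹ ∈ Gamma0 p := by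
  rw [mul_inv_rev, mul_assoc, ← mul_assoc (T ^ j), ← _root_.zpow_neg, ← zpow_add, Gamma0_mem]
  simp [coe_S, coe_T_zpow, h, Matrix.SpecialLinearGroup.coe_inv, Matrix.adjugate_fin_two]

theorem slash_ST_congr (hinv : ∀ γ ∈ Gamma0 p, f ∣[k] γ = f) {j j' : ℤ}
    (h : (j : ZMod p) = (j' : ZMod p)) : f ∣[k] (S * T ^ j) = f ∣[k] (S * T ^ j') := by
  conv_lhs => rw [← inv_mul_cancel_right (S * T ^ j) (S * T ^ j'), SlashAction.slash_mul,
    hinv _ (ST_mem_Gamma0 h)]

theorem STS_mem_Gamma0 {j i : ℤ} (h : (j : ZMod p) * i = -1) :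
    (S * T ^ j * S) * (S * T ^ i)⁻¹ ∈ Gamma0 p := by
  rw [Gamma0_mem]
  simp [coe_S, coe_T_zpow, Matrix.SpecialLinearGroup.coe_inv, Matrix.adjugate_fin_two,
    Matrix.SpecialLinearGroup.coe_mul]
  linear_combination h

theorem exists_rep (γ : SL(2, ℤ)) :
    γ ∈ Gamma0 p ∨ ∃ j : ℤ, γ * (S * T ^ j)⁻¹ ∈ Gamma0 p := by
  by_cases hc : ((γ 1 0 : ℤ) : ZMod p) = 0
  · exact Or.inl (Gamma0_mem.mpr hc)
  · refine Or.inr ⟨((((γ 1 1 : ℤ) : ZMod p) / ((γ 1 0 : ℤ) : ZMod p)).val : ℤ), ?_⟩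
    set j := ((((γ 1 1 : ℤ) : ZMod p) / ((γ 1 0 : ℤ) : ZMod p)).val : ℤ) with hj
    rw [Gamma0_mem]
    have hj' : (j : ZMod p) * ((γ 1 0 : ℤ) : ZMod p) = ((γ 1 1 : ℤ) : ZMod p) := by
      simp [hj, hc]
    simp [coe_S, coe_T_zpow, Matrix.SpecialLinearGroup.coe_inv, Matrix.adjugate_fin_two,
      Matrix.SpecialLinearGroup.coe_mul, Matrix.mul_apply, Fin.sum_univ_two]
    linear_combination hj'

theorem slash_eq_or (hinv : ∀ γ ∈ Gamma0 p, f ∣[k] γ = f) (γ : SL(2, ℤ)) :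
    f ∣[k] γ = f ∨ ∃ j : ℤ, f ∣[k] γ = (f ∣[k] S) ∣[k] (T ^ j : SL(2, ℤ)) := by
  rcases exists_rep (p := p) γ with h | ⟨j, hj⟩
  · exact Or.inl (hinv γ h)
  · refine Or.inr ⟨j, ?_⟩
    conv_lhs => rw [← inv_mul_cancel_right γ (S * T ^ j), SlashAction.slash_mul, hinv _ hj,
      SlashAction.slash_mul]

variable (f k) in
/-- A modular form on `Γ₀(p)` from a function, checking boundedness at the two cusps. -/
def gamma0Form (hinv : ∀ γ ∈ Gamma0 p, f ∣[k] γ = f) (hhol : MDiff f)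
    (hbdd : IsBoundedAtImInfty f) (hbddS : IsBoundedAtImInfty (f ∣[k] S)) :
    ModularForm (Gamma0 p) k where
  toFun := f
  slash_action_eq' := by
    rintro _ ⟨γ, hγ, rfl⟩
    exact hinv γ hγ
  holo' := hhol
  bdd_at_cusps' {c} hc := by
    rw [Subgroup.IsArithmetic.isCusp_iff_isCusp_SL2Z] at hc
    rw [OnePoint.isBoundedAt_iff_forall_SL2Z hc]
    intro γ _
    rcases slash_eq_or hinv γ with h | ⟨j, h⟩ <;> rw [h]
    · exact hbdd
    · rw [ModularForm.SL_slash (k := k) (γ := T ^ j)]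
      exact hbddS.slash k (mapGL_T_zpow_lower j)

variable (f k) in
/-- A cusp form on `Γ₀(p)` from a function, checking vanishing at the two cusps. -/
def gamma0CuspForm (hinv : ∀ γ ∈ Gamma0 p, f ∣[k] γ = f) (hhol : MDiff f)
    (hzero : IsZeroAtImInfty f) (hzeroS : IsZeroAtImInfty (f ∣[k] S)) :
    CuspForm (Gamma0 p) k where
  toFun := f
  slash_action_eq' := by
    rintro _ ⟨γ, hγ, rfl⟩
    exact hinv γ hγ
  holo' := hhol
  zero_at_cusps' {c} hc := by
    rw [Subgroup.IsArithmetic.isCusp_iff_isCusp_SL2Z] at hc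
    rw [OnePoint.isZeroAt_iff_forall_SL2Z hc]
    intro γ _
    rcases slash_eq_or hinv γ with h | ⟨j, h⟩ <;> rw [h]
    · exact hzero
    · rw [ModularForm.SL_slash (k := k) (γ := T ^ j)]
      exact hzeroS.slash k (mapGL_T_zpow_lower j)

/-- The trace of a weight two function of level `p` down to level one. -/
def traceSum (p : ℕ) [Fact p.Prime] (f : ℍ → ℂ) : ℍ → ℂ := f + ∑ j : ZMod p, f ∣[(2 : ℤ)] (S * T ^ (j.val : ℤ))

theorem sum_slash_SL {ι : Type*} (s : Finset ι) (F : ι → ℍ → ℂ) (γ : SL(2, ℤ)) :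
    (∑ i ∈ s, F i) ∣[k] γ = ∑ i ∈ s, (F i) ∣[k] γ := by
  induction s using Finset.cons_induction with
  | empty => simp [SlashAction.zero_slash]
  | cons a s ha ih => simp [Finset.sum_cons, SlashAction.add_slash, ih]

theorem traceSum_slash (hinv : ∀ γ ∈ Gamma0 p, f ∣[(2 : ℤ)] γ = f) (γ : SL(2, ℤ)) :
    traceSum p f ∣[(2 : ℤ)] γ = traceSum p f := by
  refine SlashInvariantForm.slash_action_generators_SL2Z ?_ ?_ γ
  · rw [traceSum, SlashAction.add_slash, sum_slash_SL]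
    simp only [← SlashAction.slash_mul]
    set E : ZMod p → ℍ → ℂ := fun j ↦ f ∣[(2 : ℤ)] (S * T ^ (j.val : ℤ)) with hE
    have hneg : f ∣[(2 : ℤ)] (S * S) = f := hinv _ (by rw [Gamma0_mem]; simp [coe_S])
    have key : ∀ j : ZMod p, j ≠ 0 →
        f ∣[(2 : ℤ)] (S * T ^ (j.val : ℤ) * S) = E (-j⁻¹) := by
      intro j hj
      have hmem := STS_mem_Gamma0 (p := p) (j := (j.val : ℤ)) (i := ((-j⁻¹).val : ℤ))
        (by simp [hj])
      conv_lhs => rw [← inv_mul_cancel_right (S * T ^ (j.val : ℤ) * S)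
        (S * T ^ ((-j⁻¹).val : ℤ)), SlashAction.slash_mul, hinv _ hmem]
    have hbij : ∑ j : ZMod p, E (-j⁻¹) = ∑ j, E j :=
      Equiv.sum_comp ((Equiv.inv (ZMod p)).trans (Equiv.neg (ZMod p))) E
    have hE0 : E 0 = f ∣[(2 : ℤ)] S := by simp [hE]
    rw [← Finset.add_sum_erase _ _ (Finset.mem_univ (0 : ZMod p)),
      Finset.sum_congr rfl fun j hj ↦ key j (Finset.ne_of_mem_erase hj)]
    rw [← Finset.add_sum_erase _ (fun j : ZMod p ↦ E (-j⁻¹)) (Finset.mem_univ (0 : ZMod p)),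
      ← Finset.add_sum_erase _ E (Finset.mem_univ (0 : ZMod p))] at hbij
    simp only [neg_zero, inv_zero] at hbij
    simp only [ZMod.val_zero, Nat.cast_zero, zpow_zero, mul_one, hneg]
    rw [add_left_cancel_iff.mp hbij, ← hE0]
    calc E 0 + (f + ∑ j ∈ Finset.univ.erase 0, E j)
        = f + (E 0 + ∑ j ∈ Finset.univ.erase 0, E j) := by abel
      _ = _ := by rw [Finset.add_sum_erase _ _ (Finset.mem_univ (0 : ZMod p))]
  · rw [traceSum, SlashAction.add_slash, sum_slash_SL, hinv T (by rw [Gamma0_mem]; simp [coe_T])]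
    simp only [← SlashAction.slash_mul, mul_assoc, ← zpow_add_one]
    rw [← Equiv.sum_comp (Equiv.addRight (1 : ZMod p))
      (fun j ↦ f ∣[(2 : ℤ)] (S * T ^ (j.val : ℤ)))]
    exact congrArg _ (Finset.sum_congr rfl fun j _ ↦ slash_ST_congr hinv (by simp))

/-- In weight two, vanishing at `∞` forces vanishing at `0`. -/
theorem tendsto_slash_S_zero (hinv : ∀ γ ∈ Gamma0 p, f ∣[(2 : ℤ)] γ = f) (hhol : MDiff f)
    (hzero : IsZeroAtImInfty f) {L : ℂ} (hL : Tendsto (f ∣[(2 : ℤ)] S) atImInfty (𝓝 L)) :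
    L = 0 := by
  have hlim : Tendsto (traceSum p f) atImInfty (𝓝 ((p : ℂ) * L)) := by
    have h : Tendsto (∑ j : ZMod p, f ∣[(2 : ℤ)] (S * T ^ (j.val : ℤ))) atImInfty
        (𝓝 (∑ _j : ZMod p, L)) := by
      simp only [SlashAction.slash_mul, Finset.sum_fn]
      exact tendsto_finsetSum _ fun j _ ↦ tendsto_slash_T_zpow hL _
    have h2 := Tendsto.add hzero h
    simp only [Finset.sum_const, Finset.card_univ, ZMod.card, nsmul_eq_mul, zero_add] at h2
    exact h2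
  have hhol' : MDiff (traceSum p f) :=
    hhol.add (by simpa using MDifferentiable.sum fun j _ ↦ mdiff_slash_SL hhol _)
  have h0 := levelOne_weight_two_eq_zero (traceSum_slash hinv) hhol' (hlim.isBigO_one ℝ)
  rw [h0] at hlim
  have := tendsto_nhds_unique hlim (tendsto_const_nhds : Tendsto (0 : ℍ → ℂ) atImInfty (𝓝 0))
  exact (mul_eq_zero.mp this).resolve_left (Nat.cast_ne_zero.mpr hp.out.ne_zero)

end prime

end Fermat.Agent.EIS

end
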