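import Fermat.Agent.EIS.QSer
import Fermat.Agent.EIS.Modular
import Mathlib.NumberTheory.ModularForms.EisensteinSeries.E2.Transform
import Mathlib.NumberTheory.ModularForms.EisensteinSeries.E2.MDifferentiable
import Mathlib.NumberTheory.ModularForms.EisensteinSeries.E2.Summable

/-!
# The weight two Eisenstein series `(p E₂(pz) - E₂(z))/24` of prime level `p`
-/

set_option autoImplicit false

noncomputable section

open Filter UpperHalfPlane ModularGroup CongruenceSubgroup Topology EisensteinSeries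
open scoped Manifold MatrixGroups ModularForm Real

namespace Fermat.Agent.EIS

local notation "𝕢" => Function.Periodic.qParam

/-- `z ↦ m z` on the upper half plane. -/
def mulNat (m : ℕ) [NeZero m] (z : ℍ) : ℍ :=
  ⟨(m : ℂ) * z, by simpa using mul_pos (Nat.cast_pos.mpr (NeZero.pos m)) z.im_pos⟩

/-- `z ↦ z / m` on the upper half plane. -/
def divNat (m : ℕ) [NeZero m] (z : ℍ) : ℍ :=
  ⟨(z : ℂ) / m, by simpa using div_pos z.im_pos (Nat.cast_pos.mpr (NeZero.pos m))⟩

@[simp] theorem coe_mulNat (m : ℕ) [NeZero m] (z : ℍ) : (mulNat m z : ℂ) = m * z := rfl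

@[simp] theorem coe_divNat (m : ℕ) [NeZero m] (z : ℍ) : (divNat m z : ℂ) = z / m := rfl

theorem mulNat_S_smul (m : ℕ) [NeZero m] (z : ℍ) : mulNat m (S • z) = S • divNat m z := by
  apply UpperHalfPlane.ext
  rw [coe_mulNat, UpperHalfPlane.modular_S_smul, UpperHalfPlane.modular_S_smul]
  simp only [coe_divNat]
  field_simp

/-- Conjugation of an element of `Γ₀(m)` by `diag(m, 1)`. -/
def conjGamma (m : ℕ) (γ : SL(2, ℤ)) (h : (m : ℤ) ∣ γ 1 0) : SL(2, ℤ) :=
  ⟨!![γ 0 0, (m : ℤ) * γ 0 1; γ 1 0 / (m : ℤ), γ 1 1], by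
    obtain ⟨c, hc⟩ := h
    have hdet := γ.det_coe
    rw [Matrix.det_fin_two] at hdet
    rw [Matrix.det_fin_two_of]
    rcases eq_or_ne (m : ℤ) 0 with hm | hm
    · simp_all
    · rw [hc, Int.mul_ediv_cancel_left _ hm]
      rw [hc] at hdet
      linear_combination hdet⟩

theorem denom_conjGamma (m : ℕ) [NeZero m] (γ : SL(2, ℤ)) (h : (m : ℤ) ∣ γ 1 0) (z : ℍ) :
    denom (conjGamma m γ h) (mulNat m z : ℂ) = denom γ (z : ℂ) := by
  obtain ⟨c, hc⟩ := h
  have hm : (m : ℤ) ≠ 0 := by simp [NeZero.ne m]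
  rw [ModularGroup.denom_apply, ModularGroup.denom_apply]
  simp [conjGamma, hc, Int.mul_ediv_cancel_left _ hm]
  ring

theorem mulNat_smul (m : ℕ) [NeZero m] (γ : SL(2, ℤ)) (h : (m : ℤ) ∣ γ 1 0) (z : ℍ) :
    mulNat m (γ • z) = conjGamma m γ h • mulNat m z := by
  obtain ⟨c, hc⟩ := h
  have hm : (m : ℤ) ≠ 0 := by simp [NeZero.ne m]
  apply UpperHalfPlane.ext
  rw [coe_mulNat, UpperHalfPlane.coe_specialLinearGroup_apply,
    UpperHalfPlane.coe_specialLinearGroup_apply]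
  simp [conjGamma, hc, Int.mul_ediv_cancel_left _ hm]
  ring

/-- The constant in the transformation law of `E2`. -/
def e2Const : ℂ := 1 / (2 * riemannZeta 2) * (2 * π * Complex.I)

theorem E2_smul (γ : SL(2, ℤ)) (z : ℍ) :
    E2 (γ • z) = denom γ z ^ 2 * E2 z - e2Const * (γ 1 0 : ℤ) * denom γ z := by
  have h := congr_fun (E2_slash_action γ) z
  rw [ModularForm.SL_slash_apply] at h
  have hd : denom γ z ≠ 0 := denom_ne_zero γ z
  simp only [Pi.sub_apply, Pi.smul_apply, smul_eq_mul, D2, _root_.zpow_neg] at h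
  rw [zpow_ofNat, mul_inv_eq_iff_eq_mul₀ (pow_ne_zero 2 hd)] at h
  rw [h, e2Const]
  field_simp

/-- Coefficients of `E2`. -/
def e2Ser : PowerSeries ℂ :=
  PowerSeries.mk fun n ↦ if n = 0 then 1 else -24 * (ArithmeticFunction.sigma 1 n : ℂ)

theorem isQSer_E2 : IsQSer 1 E2 e2Ser := fun τ ↦ by
  have := hasSum_qExpansion_E2 (z := τ)
  simpa [e2Ser, Function.Periodic.qParam, smul_eq_mul] using this

section prime

variable (p : ℕ) [hp : Fact p.Prime]

/-- `σ'(m) = σ(m) - p σ(m/p)`. -/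
def sigmaPrime (m : ℕ) : ℤ :=
  (ArithmeticFunction.sigma 1 m : ℤ) -
    if p ∣ m then (p : ℤ) * (ArithmeticFunction.sigma 1 (m / p) : ℤ) else 0

/-- The weight two Eisenstein series of level `p`. -/
def eisE (z : ℍ) : ℂ := ((p : ℂ) * E2 (mulNat p z) - E2 z) / 24

/-- The `q`-series of `eisE`. -/
def eisESer : PowerSeries ℂ :=
  PowerSeries.mk fun m ↦ if m = 0 then ((p : ℂ) - 1) / 24 else (sigmaPrime p m : ℂ)

theorem isQSer_eisE : IsQSer 1 (eisE p) (eisESer p) := by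
  have h1 := (((isQSer_E2.comp_mul hp.out.ne_zero (m := mulNat p) (coe_mulNat p)).smul
    ((p : ℂ) / 24)).add (isQSer_E2.smul (-(1 / 24 : ℂ))))
  have heq : eisESer p = ((p : ℂ) / 24) • PowerSeries.expand p hp.out.ne_zero e2Ser +
      (-(1 / 24 : ℂ)) • e2Ser := by
    ext m
    simp only [eisESer, map_add, PowerSeries.coeff_smul, PowerSeries.coeff_mk, smul_eq_mul,
      PowerSeries.coeff_expand]
    rcases eq_or_ne m 0 with rfl | hm
    · simp [e2Ser]; ring
    · by_cases hd : p ∣ m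
      · have hmp : m / p ≠ 0 :=
          (Nat.div_pos (Nat.le_of_dvd (Nat.pos_of_ne_zero hm) hd) hp.out.pos).ne'
        simp [e2Ser, sigmaPrime, hm, hd, hmp]; ring
      · simp [e2Ser, sigmaPrime, hm, hd]
  rw [heq]
  exact h1.congr fun τ ↦ by simp [eisE]; ring

theorem eisE_slash (γ : SL(2, ℤ)) (hγ : γ ∈ Gamma0 p) :
    eisE p ∣[(2 : ℤ)] γ = eisE p := by
  have h : (p : ℤ) ∣ γ 1 0 :=
    (ZMod.intCast_zmod_eq_zero_iff_dvd _ _).mp (Gamma0_mem.mp hγ)
  ext z
  have hd : denom γ z ≠ 0 := denom_ne_zero γ z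
  rw [ModularForm.SL_slash_apply, eisE, mulNat_smul p γ h, E2_smul, E2_smul,
    denom_conjGamma]
  have hc : ((conjGamma p γ h) 1 0 : ℤ) * (p : ℤ) = γ 1 0 := Int.ediv_mul_cancel h
  rw [← hc]
  simp only [eisE, Int.cast_mul, Int.cast_natCast, _root_.zpow_neg, zpow_ofNat]
  field_simp
  ring

theorem eisE_slash_S (z : ℍ) :
    (eisE p ∣[(2 : ℤ)] S) z = (E2 (divNat p z) / p - E2 z) / 24 := by
  have hz : (z : ℂ) ≠ 0 := ne_zero z
  have hpne : (p : ℂ) ≠ 0 := Nat.cast_ne_zero.mpr hp.out.ne_zero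
  rw [ModularForm.SL_slash_apply, eisE, mulNat_S_smul, E2_smul, E2_smul]
  simp only [denom_S]
  simp only [coe_divNat, _root_.zpow_neg, zpow_ofNat]
  simp [coe_S]
  field_simp
  ring

theorem tendsto_divNat (m : ℕ) [NeZero m] : Tendsto (divNat m) atImInfty atImInfty := by
  rw [atImInfty, tendsto_comap_iff]
  have : Tendsto (fun z : ℍ ↦ z.im / m) atImInfty atTop :=
    Tendsto.atTop_div_const (Nat.cast_pos.mpr (NeZero.pos m)) tendsto_comap
  refine this.congr fun z ↦ ?_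
  simp [← UpperHalfPlane.coe_im, Complex.div_natCast_im]

theorem tendsto_eisE_slash_S :
    Tendsto (eisE p ∣[(2 : ℤ)] S) atImInfty (𝓝 (((1 : ℂ) / p - 1) / 24)) := by
  have h := isQSer_E2.tendsto one_pos
  have h0 : e2Ser.coeff 0 = 1 := by simp [e2Ser]
  rw [h0] at h
  refine (((((h.comp (tendsto_divNat p)).div_const (p : ℂ)).sub h).div_const 24)).congr fun z ↦ ?_
  rw [eisE_slash_S]
  rfl

theorem eisE_mdiff : MDiff (eisE p) := (isQSer_eisE p).mdiff one_pos

end prime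

end Fermat.Agent.EIS

end
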