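import Fermat.Agent.EIS.E2Form
import Mathlib.NumberTheory.ArithmeticFunction.Misc

/-!
# Hecke relations for `sigmaPrime`
-/

set_option autoImplicit false

noncomputable section

open ArithmeticFunction Finset
open scoped ArithmeticFunction.sigma

namespace Fermat.Agent.EIS

theorem sigma_one_mul_prime {l : ℕ} (hl : l.Prime) {m : ℕ} (hm : m ≠ 0) :
    (σ 1 (m * l) : ℤ) + (if l ∣ m then (l : ℤ) * σ 1 (m / l) else 0) =
      (1 + (l : ℤ)) * σ 1 m := by
  obtain ⟨a, m', hm', rfl⟩ := Nat.exists_eq_pow_mul_and_not_dvd hm l hl.ne_one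
  have hcop : ∀ b, (l ^ b).Coprime m' := fun b ↦ Nat.Coprime.pow_left b ((hl.coprime_iff_not_dvd).mpr hm')
  have hσ : ∀ b, (σ 1 (l ^ b * m') : ℤ) = (∑ i ∈ range (b + 1), (l : ℤ) ^ i) * σ 1 m' := by
    intro b
    rw [isMultiplicative_sigma.map_mul_of_coprime (hcop b), sigma_one_apply_prime_pow hl]
    push_cast
    rfl
  have hs : ∀ b, ∑ i ∈ range (b + 1 + 1), (l : ℤ) ^ i =
      1 + (l : ℤ) * ∑ i ∈ range (b + 1), (l : ℤ) ^ i := fun b ↦ by
    rw [Finset.sum_range_succ', Finset.mul_sum, add_comm]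
    simp [pow_succ']
  rw [show l ^ a * m' * l = l ^ (a + 1) * m' by ring, hσ, hσ]
  rcases Nat.eq_zero_or_pos a with rfl | ha
  · rw [if_neg (by simpa using hm')]
    simp [Finset.sum_range_succ]
  · obtain ⟨b, rfl⟩ : ∃ b, a = b + 1 := ⟨a - 1, by omega⟩
    rw [if_pos (Dvd.dvd.mul_right (dvd_pow_self l (by omega)) m'),
      show l ^ (b + 1) * m' = l * (l ^ b * m') by ring, Nat.mul_div_cancel_left _ hl.pos,
      hσ, hs (b + 1), hs b]
    ring

variable (p : ℕ) [hp : Fact p.Prime]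

theorem sigmaPrime_one : sigmaPrime p 1 = 1 := by
  simp [sigmaPrime, hp.out.ne_one]

theorem sigmaPrime_mul_self {m : ℕ} (hm : m ≠ 0) : sigmaPrime p (m * p) = sigmaPrime p m := by
  have h := sigma_one_mul_prime hp.out hm
  rw [sigmaPrime, sigmaPrime, if_pos (dvd_mul_left p m), Nat.mul_div_cancel _ hp.out.pos]
  linear_combination h

theorem sigmaPrime_mul_prime {l : ℕ} (hl : l.Prime) (hlp : l ≠ p) {m : ℕ} (hm : m ≠ 0) :
    sigmaPrime p (m * l) + (if l ∣ m then (l : ℤ) * sigmaPrime p (m / l) else 0) =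
      (1 + (l : ℤ)) * sigmaPrime p m := by
  have hcop : p.Coprime l := (Nat.coprime_primes hp.out hl).mpr (Ne.symm hlp)
  have h1 := sigma_one_mul_prime hl hm
  by_cases hd : p ∣ m
  · have hmp : m / p ≠ 0 :=
      (Nat.div_pos (Nat.le_of_dvd (Nat.pos_of_ne_zero hm) hd) hp.out.pos).ne'
    have h2 := sigma_one_mul_prime hl hmp
    have e1 : m * l / p = m / p * l := by
      rw [mul_comm m l, Nat.mul_div_assoc l hd, mul_comm]
    have e2 : l ∣ m / p ↔ l ∣ m := by
      obtain ⟨c, rfl⟩ := hd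
      rw [Nat.mul_div_cancel_left _ hp.out.pos, hcop.symm.dvd_mul_left]
    simp only [sigmaPrime, if_pos hd, if_pos (hd.mul_right l), e1]
    by_cases hlm : l ∣ m
    · have e3 : p ∣ m / l := (Nat.dvd_div_iff_mul_dvd hlm).mpr (hcop.symm.mul_dvd_of_dvd_of_dvd hlm hd)
      have e4 : m / l / p = m / p / l := by
        rw [Nat.div_div_eq_div_mul, Nat.div_div_eq_div_mul, mul_comm]
      rw [if_pos hlm] at h1 ⊢
      rw [if_pos (e2.mpr hlm)] at h2
      rw [if_pos e3, e4]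
      linear_combination h1 - (p : ℤ) * h2
    · rw [if_neg hlm] at h1 ⊢
      rw [if_neg (mt e2.mp hlm)] at h2
      linear_combination h1 - (p : ℤ) * h2
  · have e1 : ¬ p ∣ m * l := fun h ↦ hd (hcop.dvd_of_dvd_mul_right h)
    simp only [sigmaPrime, if_neg hd, if_neg e1, sub_zero]
    by_cases hlm : l ∣ m
    · rw [if_pos hlm] at h1 ⊢
      rw [if_neg (fun h ↦ hd (h.trans (Nat.div_dvd_of_dvd hlm))), sub_zero]
      exact h1
    · rw [if_neg hlm] at h1 ⊢
      exact h1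

end Fermat.Agent.EIS

end
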