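import Fermat.Agent.EIS.CongruentForm
import Fermat.Agent.EIS.SigmaPrime
import Fermat.Agent.Eigen.QCoeff
import Fermat.Prelude.Def_CuspForm_HeckeLocal
import Fermat.Prelude.Def_CuspForm_HeckeEvalForms

/-!
# The Eisenstein quotient of the Hecke algebra of level `p`: lower bound and cardinality
-/

set_option autoImplicit false

noncomputable section

open CongruenceSubgroup ModularCurve ModularFormClass

namespace Fermat.Agent.EIS

variable (p : ℕ) [hp : Fact p.Prime]

/-- The surjection from the free Hecke algebra onto the lattice Hecke algebra. -/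
def heckeToLattice : HeckeAlg →+* ↥(CuspForm.heckeLatticeAlgebra p ∅) :=
  (CuspForm.latticeRestrictHom p ∅).toRingHom.comp (CuspForm.heckeEvalForms p 2)

theorem heckeEvalForms_surjective :
    Function.Surjective (CuspForm.heckeEvalForms p 2) := by
  rintro ⟨t, ht⟩
  induction ht using Algebra.adjoin_induction with
  | mem x hx =>
    rcases hx with ⟨l, hl, hlN, -, rfl⟩ | ⟨q, hqN, hq, -, rfl⟩
    · exact ⟨heckeGen ⟨l, hl⟩, CuspForm.heckeEvalForms_heckeGen_of_not_dvd (ℓ := ⟨l, hl⟩) hlN⟩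
    · exact ⟨heckeGen ⟨q, hq⟩, CuspForm.heckeEvalForms_heckeGen_of_dvd (q := ⟨q, hq⟩) hqN⟩
  | algebraMap a => exact ⟨MvPolynomial.C a, CuspForm.heckeEvalForms_C _ _ a⟩
  | add x y _ _ hx hy =>
    obtain ⟨a, ha⟩ := hx
    obtain ⟨b, hb⟩ := hy
    exact ⟨a + b, by rw [map_add, ha, hb]; rfl⟩
  | mul x y _ _ hx hy =>
    obtain ⟨a, ha⟩ := hx
    obtain ⟨b, hb⟩ := hy
    exact ⟨a * b, by rw [map_mul, ha, hb]; rfl⟩

theorem heckeToLattice_surjective : Function.Surjective (heckeToLattice p) :=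
  (CuspForm.latticeRestrictHom_surjective p ∅).comp (heckeEvalForms_surjective p)

/-- The eigenvalue system of the Eisenstein series. -/
def eisEval : HeckeAlg →ₐ[ℤ] ℤ := MvPolynomial.aeval (eisensteinSystem p)

variable {p}

theorem coe_heckeGen_apply (l : Nat.Primes) (g : CuspForm (Gamma0 p) 2) {n : ℕ} :
    qCoeff ⇑((CuspForm.heckeEvalForms p 2 (MvPolynomial.X l) :
        Module.End ℂ (CuspForm (Gamma0 p) 2)) g) n =
      qCoeff g (n * l) +
        if (l : ℕ) ∣ n ∧ ¬ (l : ℕ) ∣ p then ((l : ℕ) : ℂ) * qCoeff g (n / l) else 0 := by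
  change qCoeff ⇑((CuspForm.heckeEvalForms p 2 (heckeGen l) :
        Module.End ℂ (CuspForm (Gamma0 p) 2)) g) n = _
  by_cases h : (l : ℕ) ∣ p
  · rw [CuspForm.heckeEvalForms_heckeGen_of_dvd h, CuspForm.heckeAlgebra.coe_U,
      Fermat.Agent.Eigen.qCoeff_heckeULin, if_neg (fun h' ↦ h'.2 h), add_zero]
  · rw [CuspForm.heckeEvalForms_heckeGen_of_not_dvd h, CuspForm.heckeAlgebra.coe_T,
      Fermat.Agent.Eigen.qCoeff_heckeTLin]
    simp [h]

/-- Being congruent to `c` times the Eisenstein series modulo `n`. -/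
def EisCongr (n : ℕ) (g : CuspForm (Gamma0 p) 2) (c : ZMod n) : Prop :=
  ∀ m, m ≠ 0 → ∃ z : ℤ, qCoeff g m = z ∧ (z : ZMod n) = c * (sigmaPrime p m : ZMod n)

theorem EisCongr.gen {n : ℕ} {g : CuspForm (Gamma0 p) 2} {c : ZMod n} (hg : EisCongr n g c)
    (l : Nat.Primes) :
    EisCongr n ((CuspForm.heckeEvalForms p 2 (MvPolynomial.X l) :
      Module.End ℂ (CuspForm (Gamma0 p) 2)) g) ((eisensteinSystem p l : ZMod n) * c) := by
  intro m hm
  obtain ⟨z1, hz1, hz1'⟩ := hg (m * l) (mul_ne_zero hm l.2.ne_zero)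
  rw [coe_heckeGen_apply, hz1]
  by_cases h : (l : ℕ) ∣ p
  · have hl : (l : ℕ) = p := (Nat.prime_dvd_prime_iff_eq l.2 hp.out).mp h
    refine ⟨z1, by simp [h], ?_⟩
    rw [hz1', eisensteinSystem_of_dvd h, hl, sigmaPrime_mul_self p hm]
    simp
  · have hl : (l : ℕ) ≠ p := fun e ↦ h (e ▸ dvd_rfl)
    have key := congrArg (Int.cast : ℤ → ZMod n) (sigmaPrime_mul_prime p l.2 hl hm)
    rw [eisensteinSystem_of_not_dvd h]
    by_cases hd : (l : ℕ) ∣ m
    · obtain ⟨z2, hz2, hz2'⟩ :=
        hg (m / l) (Nat.div_pos (Nat.le_of_dvd (Nat.pos_of_ne_zero hm) hd) l.2.pos).ne'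
      refine ⟨z1 + (l : ℕ) * z2, by simp [h, hd, hz2], ?_⟩
      rw [if_pos hd] at key
      push_cast at key ⊢
      rw [hz1', hz2']
      linear_combination c * key
    · refine ⟨z1, by simp [hd], ?_⟩
      rw [if_neg hd, add_zero] at key
      push_cast at key ⊢
      rw [hz1']
      linear_combination c * key

theorem EisCongr.eval {n : ℕ} {g : CuspForm (Gamma0 p) 2} {c : ZMod n} (hg : EisCongr n g c)
    (x : HeckeAlg) :
    EisCongr n ((CuspForm.heckeEvalForms p 2 x : Module.End ℂ (CuspForm (Gamma0 p) 2)) g)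
      ((eisEval p x : ZMod n) * c) := by
  induction x using MvPolynomial.induction_on generalizing g c with
  | C a =>
    intro m hm
    obtain ⟨z, hz, hz'⟩ := hg m hm
    refine ⟨a * z, ?_, ?_⟩
    · rw [CuspForm.heckeEvalForms_C, Subalgebra.coe_algebraMap, Module.algebraMap_end_apply,
        ← Int.cast_smul_eq_zsmul ℂ, Fermat.Agent.Eigen.qCoeff_smul, hz]
      push_cast
      rfl
    · simp [eisEval, hz', mul_assoc]
  | add x y hx hy =>
    intro m hm
    obtain ⟨z1, h1, h1'⟩ := hx hg m hm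
    obtain ⟨z2, h2, h2'⟩ := hy hg m hm
    refine ⟨z1 + z2, ?_, ?_⟩
    · rw [map_add, Subalgebra.coe_add, LinearMap.add_apply, Fermat.Agent.Eigen.qCoeff_add, h1, h2]
      push_cast
      rfl
    · rw [map_add]
      push_cast
      rw [h1', h2']
      ring
  | mul_X x l hx =>
    have h1 := hx (hg.gen l)
    have e : eisEval p (MvPolynomial.X l) = eisensteinSystem p l := MvPolynomial.aeval_X _ _
    rw [map_mul, Subalgebra.coe_mul, Module.End.mul_apply, map_mul, e, Int.cast_mul, mul_assoc]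
    exact h1

variable (p)

/-- The lower bound: the Hecke algebra maps onto `ℤ/n` with kernel containing the Eisenstein
ideal. -/
theorem exists_eisensteinHom :
    ∃ χ : ↥(CuspForm.heckeLatticeAlgebra p ∅) →+* ZMod (eisensteinNumerator p),
      Ideal.map (heckeToLattice p) (eisensteinIdeal p) ≤ RingHom.ker χ := by
  set n := eisensteinNumerator p with hn
  have hker : RingHom.ker (heckeToLattice p) ≤
      RingHom.ker ((Int.castRingHom (ZMod n)).comp (eisEval p).toRingHom) := by
    by_cases h1 : 1 < n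
    · obtain ⟨f, u, a, hu, ha, hcong⟩ := exists_congruent_cuspForm h1
      intro x hx
      rw [RingHom.mem_ker] at hx ⊢
      have hf : f ∈ CuspForm.intLattice p 2 := Submodule.subset_span fun m ↦ ⟨a m, ha m⟩
      have hf' : EisCongr n f (u : ZMod n) := fun m hm ↦ ⟨a m, ha m, hcong m hm⟩
      obtain ⟨z, hz, hz'⟩ := hf'.eval x 1 one_ne_zero
      have h0 : (CuspForm.heckeEvalForms p 2 x : Module.End ℂ (CuspForm (Gamma0 p) 2)) f = 0 :=
        congrArg (fun T : ↥(CuspForm.heckeLatticeAlgebra p ∅) ↦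
          (((T : Module.End ℤ ↥(CuspForm.intLattice p 2)) ⟨f, hf⟩ : ↥(CuspForm.intLattice p 2)) :
            CuspForm (Gamma0 p) 2)) hx
      rw [h0, Fermat.Agent.Eigen.qCoeff_zero_form] at hz
      have hz0 : z = 0 := by exact_mod_cast hz.symm
      rw [hz0, sigmaPrime_one, Int.cast_one, mul_one, Int.cast_zero] at hz'
      exact (IsUnit.mul_left_eq_zero ((ZMod.isUnit_iff_coprime u n).mpr hu)).mp hz'.symm
    · have : Subsingleton (ZMod n) := by
        have : n ≠ 0 := by
          have := hp.out.two_le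
          rw [hn, eisensteinNumerator]
          exact (Nat.div_pos (Nat.le_of_dvd (by omega) (Nat.gcd_dvd_left _ _))
            (Nat.gcd_pos_of_pos_right _ (by norm_num))).ne'
        rw [show n = 1 by omega]
        exact inferInstanceAs (Subsingleton (Fin 1))
      intro x _
      exact Subsingleton.elim _ _
  refine ⟨(heckeToLattice p).liftOfSurjective (heckeToLattice_surjective p) ⟨_, hker⟩, ?_⟩
  rw [Ideal.map_le_iff_le_comap]
  intro x hx
  simp only [Ideal.mem_comap, RingHom.mem_ker]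
  rw [RingHom.liftOfRightInverse_comp_apply]
  rw [eisensteinIdeal, mem_eigenIdeal_iff] at hx
  show ((eisEval p x : ℤ) : ZMod n) = 0
  rw [show eisEval p x = 0 from hx, Int.cast_zero]

/-- A quotient by the image of the kernel of a character is a quotient of `ℤ`. -/
theorem natCard_quotient_eq_of_bounds {A R : Type} [CommRing A] [CommRing R] (φ : A →+* R)
    (hφ : Function.Surjective φ) (ε : A →+* ℤ) (n : ℕ)
    (hup : ∀ (M : ℕ) (χ : R →+* ZMod M), Ideal.map φ (RingHom.ker ε) ≤ RingHom.ker χ → M ∣ n)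
    (hlow : ∃ χ : R →+* ZMod n, Ideal.map φ (RingHom.ker ε) ≤ RingHom.ker χ) :
    Nat.card (R ⧸ Ideal.map φ (RingHom.ker ε)) = n := by
  set I := Ideal.map φ (RingHom.ker ε) with hI
  set ψ : ℤ →+* R ⧸ I := Int.castRingHom _ with hψ
  have hsurj : Function.Surjective ψ := by
    intro y
    obtain ⟨t, rfl⟩ := Ideal.Quotient.mk_surjective y
    obtain ⟨x, rfl⟩ := hφ t
    refine ⟨ε x, ?_⟩
    have hmem : x - (ε x : A) ∈ RingHom.ker ε := by
      rw [RingHom.mem_ker, map_sub, map_intCast, Int.cast_id, sub_self]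
    have h0 := Ideal.Quotient.eq.mpr (show φ x - φ (ε x : A) ∈ I by
      rw [← map_sub]; exact Ideal.mem_map_of_mem φ hmem)
    rw [h0, map_intCast, map_intCast]
    rfl
  obtain ⟨M, hM⟩ : ∃ M : ℕ, RingHom.ker ψ = Ideal.span {(M : ℤ)} :=
    ⟨(Submodule.IsPrincipal.generator (RingHom.ker ψ)).natAbs, by
      rw [Int.span_natAbs, Ideal.span_singleton_generator]⟩
  let e : (R ⧸ I) ≃+* ZMod M :=
    (RingHom.quotientKerEquivOfSurjective hsurj).symm.trans
      ((Ideal.quotEquivOfEq hM).trans (Int.quotientSpanNatEquivZMod M))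
  have h1 : M ∣ n :=
    hup M (e.toRingHom.comp (Ideal.Quotient.mk I)) (fun x hx ↦ by
      rw [RingHom.mem_ker, RingHom.comp_apply, Ideal.Quotient.eq_zero_iff_mem.mpr hx, map_zero])
  have h2 : n ∣ M := by
    obtain ⟨χ, hχ⟩ := hlow
    let χ' : ZMod M →+* ZMod n :=
      (Ideal.Quotient.lift I χ (fun x hx ↦ RingHom.mem_ker.mp (hχ hx))).comp e.symm.toRingHom
    have := congrArg χ' (ZMod.natCast_self M)
    rw [map_natCast, map_zero, ZMod.natCast_eq_zero_iff] at this
    exact this
  rw [Nat.card_congr e.toEquiv, Nat.card_zmod, Nat.dvd_antisymm h1 h2]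

/-- The index of the Eisenstein ideal, given the upper bound. -/
theorem natCard_quotient_eq_of_upper
    (hup : ∀ (M : ℕ) (χ : ↥(CuspForm.heckeLatticeAlgebra p ∅) →+* ZMod M),
      Ideal.map (heckeToLattice p) (eisensteinIdeal p) ≤ RingHom.ker χ →
        M ∣ eisensteinNumerator p) :
    Nat.card (↥(CuspForm.heckeLatticeAlgebra p ∅) ⧸
      Ideal.map (heckeToLattice p) (eisensteinIdeal p)) = eisensteinNumerator p :=
  natCard_quotient_eq_of_bounds (heckeToLattice p) (heckeToLattice_surjective p)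
    (eisEval p).toRingHom (eisensteinNumerator p) hup (exists_eisensteinHom p)

end Fermat.Agent.EIS

end
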