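import Fermat.Agent.EIS.WeightOne
import Fermat.Agent.EIS.E2Form
import Mathlib.NumberTheory.Cyclotomic.Gal
import Mathlib.FieldTheory.Galois.Basic
import Mathlib.RingTheory.Polynomial.Cyclotomic.Basic
import Mathlib.NumberTheory.Cyclotomic.Basic
import Mathlib.Analysis.Complex.Polynomial.Basic
import Mathlib.RingTheory.IntegralClosure.IntegrallyClosed

/-!
# A weight two form on `Γ₀(p)` with constant term `4 h r³` and higher coefficients in `8ℤ`

`r = 2h + 1` is an auxiliary prime with `p ^ h = -1` in `ℤ/r`.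
-/

set_option autoImplicit false
set_option linter.unusedSectionVars false

noncomputable section

open Filter UpperHalfPlane Topology Finset Matrix PowerSeries ModularGroup CongruenceSubgroup
open scoped Real MatrixGroups ModularForm Manifold

namespace Fermat.Agent.EIS

/-- `x` is twice an algebraic integer. -/
def EvenInt {L : Type*} [Field L] (x : L) : Prop := ∃ y, IsIntegral ℤ y ∧ x = 2 * y

theorem EvenInt.add {L : Type*} [Field L] {x x' : L} (h : EvenInt x) (h' : EvenInt x') :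
    EvenInt (x + x') := by
  obtain ⟨y, hy, rfl⟩ := h
  obtain ⟨y', hy', rfl⟩ := h'
  exact ⟨y + y', hy.add hy', by ring⟩

variable {r : ℕ} [hr : Fact r.Prime] {p : ℕ} [hp : Fact p.Prime]

/-- The twist `v ↦ pⁱ⁺¹ · v · diag(p, 1)⁻¹`. -/
def sigmaV (p i : ℕ) (v : Fin 2 → ZMod r) : Fin 2 → ZMod r :=
  ![(p : ZMod r) ^ i * v 0, (p : ZMod r) ^ (i + 1) * v 1]

/-- The series of `prodForm`. -/
def prodSer {L : Type*} [Field L] (p : ℕ) (hp : p ≠ 0) (h : ℕ) (ζ : L) (r : ℕ) [Fact r.Prime] :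
    PowerSeries L :=
  ∑ i ∈ range h, ∑ v ∈ (univ : Finset (Fin 2 → ZMod r)).erase 0,
    hSer ζ v * PowerSeries.expand p hp (hSer ζ (sigmaV p i v))

/-- The form itself. -/
def prodForm (r : ℕ) [Fact r.Prime] (p : ℕ) [Fact p.Prime] (h : ℕ) (z : ℍ) : ℂ :=
  ∑ i ∈ range h, ∑ v ∈ (univ : Finset (Fin 2 → ZMod r)).erase 0,
    hFun v z * hFun (sigmaV p i v) (mulNat p z)

theorem map_prodSer {L L' : Type*} [Field L] [Field L'] (f : L →+* L') (hp0 : p ≠ 0) (h : ℕ)
    (ζ : L) : PowerSeries.map f (prodSer p hp0 h ζ r) = prodSer p hp0 h (f ζ) r := by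
  simp [prodSer, map_sum, map_hSer, PowerSeries.map_expand]

theorem prodSer_zpw {L : Type*} [Field L] {ζ : L} (hζ : ζ ^ r = 1) (hp0 : p ≠ 0) (h : ℕ)
    {j : ZMod r} (hj : j ≠ 0) : prodSer p hp0 h (zpw ζ j) r = prodSer p hp0 h ζ r := by
  refine Finset.sum_congr rfl fun i _ ↦ ?_
  refine Finset.sum_nbij' (fun v ↦ ![v 0, j * v 1]) (fun v ↦ ![v 0, j⁻¹ * v 1])
    ?_ ?_ ?_ ?_ fun v _ ↦ ?_
  · intro v hv
    simp only [mem_erase, ne_eq, mem_univ, and_true]
      at hv ⊢
    intro h0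
    apply hv
    have h00 := congr_fun h0 0
    have h01 := congr_fun h0 1
    simp [hj] at h00 h01
    funext i; fin_cases i <;> assumption
  · intro v hv
    simp only [mem_erase, ne_eq, mem_univ, and_true]
      at hv ⊢
    intro h0
    apply hv
    have h00 := congr_fun h0 0
    have h01 := congr_fun h0 1
    simp [hj] at h00 h01
    funext i; fin_cases i <;> assumption
  · intro v _; funext i; fin_cases i <;> simp [← mul_assoc, mul_inv_cancel₀ hj, inv_mul_cancel₀ hj]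
  · intro v _; funext i; fin_cases i <;> simp [← mul_assoc, mul_inv_cancel₀ hj, inv_mul_cancel₀ hj]
  · rw [hSer_zpw hζ, hSer_zpw hζ]
    have : (![sigmaV p i v 0, j * sigmaV p i v 1] : Fin 2 → ZMod r) =
        sigmaV p i ![v 0, j * v 1] := by
      funext k; fin_cases k <;> simp [sigmaV, mul_left_comm]
    rw [this]

/-- A set of representatives for nonzero vectors modulo sign. -/
def halfSet (r : ℕ) [Fact r.Prime] : Finset (Fin 2 → ZMod r) :=
  univ.filter fun v ↦
    if v 0 ≠ 0 then (v 0).val ≤ r / 2 else v 1 ≠ 0 ∧ (v 1).val ≤ r / 2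

variable (hr2 : r ≠ 2)
include hr2

theorem val_neg_le_iff {a : ZMod r} (ha : a ≠ 0) : (-a).val ≤ r / 2 ↔ ¬ a.val ≤ r / 2 := by
  obtain ⟨j, hj⟩ := hr.out.odd_of_ne_two hr2
  haveI : NeZero a := ⟨ha⟩
  rw [ZMod.val_neg_of_ne_zero]
  have := a.val_lt
  omega

theorem halfSet_spec {v : Fin 2 → ZMod r} (hv : v ≠ 0) : v ∈ halfSet r ↔ -v ∉ halfSet r := by
  simp only [halfSet, mem_filter, mem_univ, true_and, Pi.neg_apply, ne_eq, neg_eq_zero]
  by_cases h0 : v 0 = 0
  · have h1 : v 1 ≠ 0 := fun h1 ↦ hv (funext fun i ↦ by fin_cases i <;> assumption)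
    simp [h0, h1, val_neg_le_iff hr2 h1]
  · simp [h0, val_neg_le_iff hr2 h0]

theorem zero_notMem_halfSet : (0 : Fin 2 → ZMod r) ∉ halfSet r := by simp [halfSet]

/-- A finite set is a half system if it contains exactly one of `±v` for all nonzero `v`. -/
def IsHalf (H : Finset (Fin 2 → ZMod r)) : Prop :=
  (0 : Fin 2 → ZMod r) ∉ H ∧ ∀ v, v ≠ 0 → (v ∈ H ↔ -v ∉ H)

theorem IsHalf.sum_eq {M : Type*} [AddCommMonoid M] {H : Finset (Fin 2 → ZMod r)}
    (hH : IsHalf H) (F : (Fin 2 → ZMod r) → M) :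
    ∑ v ∈ (univ : Finset (Fin 2 → ZMod r)).erase 0, F v = ∑ v ∈ H, (F v + F (-v)) := by
  rw [Finset.sum_add_distrib, ← Finset.sum_image (g := fun v : Fin 2 → ZMod r ↦ -v) (f := F)
    (neg_injective.injOn)]
  rw [← Finset.sum_union]
  · congr 1
    ext v
    simp only [mem_erase, ne_eq, mem_univ, and_true, mem_union, mem_image]
    constructor
    · intro hv
      by_cases h : v ∈ H
      · exact Or.inl h
      · refine Or.inr ⟨-v, ?_, neg_neg v⟩
        by_contra h'
        exact h ((hH.2 v hv).mpr h')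
    · rintro (h | ⟨w, hw, rfl⟩)
      · exact fun h0 ↦ hH.1 (h0 ▸ h)
      · exact fun h0 ↦ hH.1 (neg_eq_zero.mp h0 ▸ hw)
  · rw [Finset.disjoint_left]
    intro v hv hv'
    obtain ⟨w, hw, rfl⟩ := mem_image.mp hv'
    have hw0 : w ≠ 0 := fun h0 ↦ hH.1 (h0 ▸ hw)
    exact ((hH.2 w hw0).mp hw) hv

theorem isHalf_halfSet : IsHalf (halfSet r) :=
  ⟨zero_notMem_halfSet hr2, fun _ hv ↦ halfSet_spec hr2 hv⟩

omit hr2 in
theorem sigmaV_neg (i : ℕ) (v : Fin 2 → ZMod r) : sigmaV p i (-v) = -sigmaV p i v := by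
  funext k; fin_cases k <;> simp [sigmaV]

variable (hpr : (p : ZMod r) ≠ 0)
include hpr

omit hr2 in
theorem sigmaV_injective (i : ℕ) : Function.Injective (sigmaV (r := r) p i) := by
  intro v w h
  have h0 := congr_fun h 0
  have h1 := congr_fun h 1
  simp [sigmaV, hpr] at h0 h1
  funext k; fin_cases k <;> assumption

omit hr2 in
theorem sigmaV_ne_zero (i : ℕ) {v : Fin 2 → ZMod r} (hv : v ≠ 0) : sigmaV p i v ≠ 0 := fun h ↦
  hv (sigmaV_injective hpr i (h.trans (by funext k; fin_cases k <;> simp [sigmaV])))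

theorem IsHalf.image {H : Finset (Fin 2 → ZMod r)} (hH : IsHalf H) (i : ℕ) :
    IsHalf (H.image (sigmaV p i)) := by
  have hinj := sigmaV_injective (r := r) hpr i
  have hsurj : Function.Surjective (sigmaV (r := r) p i) :=
    Finite.surjective_of_injective hinj
  refine ⟨fun h ↦ ?_, fun v hv ↦ ?_⟩
  · obtain ⟨w, hw, h0⟩ := mem_image.mp h
    exact sigmaV_ne_zero hpr i (fun h' ↦ hH.1 (h' ▸ hw)) h0
  · obtain ⟨w, rfl⟩ := hsurj v
    have hw : w ≠ 0 := fun h ↦ hv (by subst h; funext k; fin_cases k <;> simp [sigmaV])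
    rw [← sigmaV_neg, hinj.mem_finset_image, hinj.mem_finset_image]
    exact hH.2 w hw

omit hpr in
/-- The key congruence, from the vanishing of level one forms of weight two. -/
theorem even_coeff_sum_half {H : Finset (Fin 2 → ZMod r)} (hH : IsHalf H)
    {A : (Fin 2 → ZMod r) → PowerSeries ℂ} (hAi : ∀ v, v ≠ 0 → IntSer (A v))
    (hA : ∀ v, v ≠ 0 → hSer (zetaC r) v = 1 + (2 : ℂ) • A v) :
    ∀ n ≠ 0, EvenInt (coeff n (∑ v ∈ H, A v)) := by
  have hne : ∀ v ∈ H, v ≠ 0 := fun v hv h0 ↦ hH.1 (h0 ▸ hv)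
  -- squares
  have hsq := sum_hSer_mul_eq_zero hr2 (r := r) one_ne_zero
  simp only [one_smul] at hsq
  rw [hH.sum_eq hr2] at hsq
  set S1 := ∑ v ∈ H, A v with hS1
  set S2 := ∑ v ∈ H, A v * A v with hS2
  have e1 : (2 : ℂ) • ((H.card : PowerSeries ℂ) + (4 : ℂ) • (S1 + S2)) = 0 := by
    rw [← hsq, hS1, hS2, ← Finset.sum_add_distrib, Finset.smul_sum, Finset.card_eq_sum_ones,
      Nat.cast_sum, ← Finset.sum_add_distrib, Finset.smul_sum]
    refine Finset.sum_congr rfl fun v hv ↦ ?_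
    rw [hSer_neg hr2 (hne v hv), hA v (hne v hv)]
    simp only [smul_eq_C_mul, map_ofNat, Nat.cast_one]
    ring
  have e2 : ∀ (s : Finset (Fin 2 → ZMod r)), (∀ v ∈ s, IntSer (A v)) →
      ∃ B : PowerSeries ℂ, IntSer B ∧
        (∑ v ∈ s, A v) * (∑ v ∈ s, A v) = (∑ v ∈ s, A v * A v) + (2 : ℂ) • B := by
    intro s
    induction s using Finset.cons_induction with
    | empty => exact fun _ ↦ ⟨0, fun n ↦ by simp [isIntegral_zero], by simp⟩
    | cons a t ha ih =>
      intro hs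
      obtain ⟨B, hB, hBe⟩ := ih fun v hv ↦ hs v (Finset.mem_cons.mpr (Or.inr hv))
      refine ⟨A a * (∑ v ∈ t, A v) + B, ((hs a (Finset.mem_cons_self _ _)).mul
        (IntSer.sum t fun v hv ↦ hs v (Finset.mem_cons.mpr (Or.inr hv)))).add hB, ?_⟩
      rw [Finset.sum_cons, Finset.sum_cons, smul_eq_C_mul, map_ofNat] at *
      linear_combination hBe
  obtain ⟨B, hB, hBe⟩ := e2 H fun v hv ↦ hAi v (hne v hv)
  have hS1i : IntSer S1 := IntSer.sum H fun v hv ↦ hAi v (hne v hv)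
  intro n
  induction n using Nat.strong_induction_on with
  | _ n ih =>
    intro hn
    have c1 := congrArg (coeff n) e1
    have c2 := congrArg (coeff n) hBe
    simp only [map_add, PowerSeries.coeff_smul, smul_eq_mul, map_zero] at c1 c2
    rw [← map_natCast (PowerSeries.C (R := ℂ)), PowerSeries.coeff_C, if_neg hn, zero_add] at c1
    have c3 : coeff n S1 + coeff n S2 = 0 := by linear_combination c1 / 8
    -- the square
    obtain ⟨m, rfl⟩ : ∃ m, n = m + 1 := ⟨n - 1, by omega⟩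
    rw [PowerSeries.coeff_mul, Finset.Nat.sum_antidiagonal_succ, Finset.sum_eq_sum_sdiff_singleton_add
      (i := (m, 0)) (by simp)] at c2
    dsimp only at c2
    obtain ⟨y, hy, hyeq⟩ : EvenInt (∑ x ∈ antidiagonal m \ {(m, 0)},
        coeff (x.1 + 1) S1 * coeff x.2 S1) := by
      refine Finset.sum_induction _ EvenInt (fun _ _ ↦ EvenInt.add)
        ⟨0, isIntegral_zero, by simp⟩ fun x hx ↦ ?_
      simp only [Finset.mem_sdiff, mem_antidiagonal, Finset.mem_singleton] at hx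
      obtain ⟨a, b⟩ := x
      rcases Nat.eq_zero_or_pos b with rfl | hb
      · simp at hx
      · obtain ⟨z, hz, hze⟩ := ih (a + 1) (by dsimp at hx; omega) (by omega)
        exact ⟨z * coeff b S1, hz.mul (hS1i b), by rw [hze, mul_assoc]⟩
    refine ⟨coeff (m + 1) B - y - coeff 0 S1 * coeff (m + 1) S1,
      ((hB _).sub hy).sub ((hS1i 0).mul (hS1i _)), ?_⟩
    linear_combination c3 + c2 - hyeq

omit hr2 hpr in
theorem natCast_mul_coeff_zero_hSer {v : Fin 2 → ZMod r} (hr2 : r ≠ 2) (hv : v 0 ≠ 0) :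
    constantCoeff (hSer (zetaC r) v) =
      if (eisOrd v : ZMod r) = v 0 then (r : ℂ) else -(r : ℂ) := by
  have hv' : v ≠ 0 := fun h ↦ hv (by rw [h]; rfl)
  have hz : zpw (zetaC r) (-v 1) ≠ 0 := by
    simp [zpw, isPrimitiveRoot_zetaC.ne_zero hr.out.ne_zero]
  have hz' : zpw (zetaC r) (v 1) ≠ 0 := by
    simp [zpw, isPrimitiveRoot_zetaC.ne_zero hr.out.ne_zero]
  rw [hSer, map_mul, PowerSeries.constantCoeff_inv, hNum, hDen,
    ← coeff_zero_eq_constantCoeff_apply, ← coeff_zero_eq_constantCoeff_apply,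
    PowerSeries.coeff_smul, PowerSeries.coeff_smul, coeff_eisShift_zero hr2,
    coeff_eisShift_zero hr2, eisScale, eisLead, eisLead, if_neg hv, if_neg hv, if_neg hv]
  split_ifs
  · simp [hz']
  · simp only [smul_eq_mul]
    field_simp

variable {h : ℕ} (hh : r = 2 * h + 1) (hph : (p : ZMod r) ^ h = -1)
include hh hph

omit hpr hph in
theorem sgn_neg {v : Fin 2 → ZMod r} (hv : v 0 ≠ 0) :
    constantCoeff (hSer (zetaC r) (-v)) = -constantCoeff (hSer (zetaC r) v) := by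
  rw [hSer_neg hr2 (fun h0 ↦ hv (by rw [h0]; rfl)), map_neg]

theorem coeff_zero_prodSer :
    coeff 0 (prodSer p hp.out.ne_zero h (zetaC r) r) = 4 * (h : ℂ) * (r : ℂ) ^ 3 := by
  set c : (Fin 2 → ZMod r) → ℂ := fun v ↦ constantCoeff (hSer (zetaC r) v) with hc
  set s : Finset (Fin 2 → ZMod r) := univ.erase 0 with hs
  let Φ : ZMod r → ZMod r → ℂ := fun y x ↦ ∑ v ∈ s, c v * c ![y * v 0, x * v 1]
  let A : ZMod r → ℂ := fun y ↦ ∑ v ∈ s.filter (fun v ↦ v 0 ≠ 0), c v * c ![y * v 0, v 1]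
  let B : ZMod r → ℂ := fun x ↦ ∑ v ∈ s.filter (fun v ↦ ¬ v 0 ≠ 0), c v * c ![v 0, x * v 1]
  have hΦ : ∀ y x, y ≠ 0 → Φ y x = A y + B x := by
    intro y x hy
    simp only [Φ, A, B]
    rw [← Finset.sum_filter_add_sum_filter_not s (fun v ↦ v 0 ≠ 0)]
    congr 1
    · refine Finset.sum_congr rfl fun v hv ↦ ?_
      have hv0 := (mem_filter.mp hv).2
      simp only [hc]
      rw [natCast_mul_coeff_zero_hSer hr2 (v := ![y * v 0, x * v 1]) (by simp [hy, hv0]),
        natCast_mul_coeff_zero_hSer hr2 (v := ![y * v 0, v 1]) (by simp [hy, hv0])]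
      simp [eisOrd]
    · refine Finset.sum_congr rfl fun v hv ↦ ?_
      have hv0 : v 0 = 0 := not_not.mp (mem_filter.mp hv).2
      simp [hv0]
  have hdiag : ∀ x, x ≠ 0 → Φ x x = 0 := by
    intro x hx
    have := congrArg constantCoeff (sum_hSer_mul_eq_zero hr2 (r := r) hx)
    simp only [map_sum, map_mul, map_zero] at this
    rw [← this]
    refine Finset.sum_congr rfl fun v _ ↦ ?_
    simp only [hc]
    congr 3
  have hsum : coeff 0 (prodSer p hp.out.ne_zero h (zetaC r) r) =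
      ∑ i ∈ range h, (A ((p : ZMod r) ^ i) - A ((p : ZMod r) ^ (i + 1))) := by
    simp only [prodSer, map_sum]
    refine Finset.sum_congr rfl fun i _ ↦ ?_
    have h1 := hdiag _ (pow_ne_zero (i + 1) hpr)
    rw [hΦ _ _ (pow_ne_zero _ hpr)] at h1
    calc _ = Φ ((p : ZMod r) ^ i) ((p : ZMod r) ^ (i + 1)) := by
          refine Finset.sum_congr rfl fun v _ ↦ ?_
          simp [hc, sigmaV, PowerSeries.constantCoeff_expand]
      _ = A ((p : ZMod r) ^ i) + B ((p : ZMod r) ^ (i + 1)) := hΦ _ _ (pow_ne_zero _ hpr)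
      _ = _ := by linear_combination h1
  rw [hsum, Finset.sum_range_sub', pow_zero, hph]
  have hA1 : A 1 = (((r : ℂ) - 1) * r) * (r : ℂ) ^ 2 := by
    have hcard : ((s.filter (fun v ↦ v 0 ≠ 0)).card : ℂ) = ((r : ℂ) - 1) * r := by
      have : (s.filter (fun v ↦ v 0 ≠ 0)) =
          ((univ.erase (0 : ZMod r)) ×ˢ (univ : Finset (ZMod r))).map
            (finTwoArrowEquiv (ZMod r)).symm.toEmbedding := by
        ext v
        simp only [mem_filter, hs, mem_erase, mem_univ, and_true, Finset.mem_map_equiv,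
          Equiv.symm_symm, mem_product, finTwoArrowEquiv_apply, ne_eq]
        exact ⟨fun h ↦ h.2, fun h ↦ ⟨fun h0 ↦ h (by rw [h0]; rfl), h⟩⟩
      rw [this, Finset.card_map, Finset.card_product, Finset.card_erase_of_mem (mem_univ _),
        Finset.card_univ, ZMod.card, Nat.cast_mul, Nat.cast_sub hr.out.one_le]
      simp
    rw [← hcard, ← nsmul_eq_mul, ← Finset.sum_const]
    refine Finset.sum_congr rfl fun v hv ↦ ?_
    have hv0 := (mem_filter.mp hv).2
    simp only [one_mul, hc]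
    rw [natCast_mul_coeff_zero_hSer hr2 hv0,
      natCast_mul_coeff_zero_hSer hr2 (v := ![v 0, v 1]) (by simpa using hv0)]
    simp only [eisOrd, Matrix.cons_val_zero]
    by_cases hq : ((v 0).valMinAbs.natAbs : ZMod r) = v 0 <;>
      simp only [hq, if_true, if_false] <;> ring
  have hAneg : A (-1) = -A 1 := by
    simp only [A]
    rw [← Finset.sum_neg_distrib]
    refine Finset.sum_congr rfl fun v hv ↦ ?_
    have hv0 := (mem_filter.mp hv).2
    simp only [hc, one_mul, neg_mul]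
    have e : constantCoeff (hSer (zetaC r) ![-v 0, v 1]) =
        -constantCoeff (hSer (zetaC r) ![v 0, v 1]) := by
      have h1 := sgn_neg hr2 hh (v := ![v 0, -v 1]) (by simpa using hv0)
      have h2 : -![v 0, -v 1] = ![-v 0, v 1] := by funext k; fin_cases k <;> simp
      rw [h2] at h1
      rw [h1, natCast_mul_coeff_zero_hSer hr2 (v := ![v 0, -v 1]) (by simpa using hv0),
        natCast_mul_coeff_zero_hSer hr2 (v := ![v 0, v 1]) (by simpa using hv0)]
      simp [eisOrd]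
    rw [e]
    ring
  rw [hAneg, hA1]
  have : (r : ℂ) = 2 * (h : ℂ) + 1 := by exact_mod_cast hh
  rw [this]
  ring

theorem exists_eight_mul_coeff (n : ℕ) (hn : n ≠ 0) :
    ∃ y : ℂ, IsIntegral ℤ y ∧ coeff n (prodSer p hp.out.ne_zero h (zetaC r) r) = 8 * y := by
  classical
  have hex : ∀ v : Fin 2 → ZMod r, ∃ A : PowerSeries ℂ,
      v ≠ 0 → IntSer A ∧ hSer (zetaC r) v = 1 + (2 : ℂ) • A := fun v ↦ by
    by_cases hv : v = 0
    · exact ⟨0, fun h0 ↦ absurd hv h0⟩
    · obtain ⟨A, hA⟩ := exists_hSer_eq hr2 isPrimitiveRoot_zetaC hv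
      exact ⟨A, fun _ ↦ hA⟩
  choose A hA using hex
  set H := halfSet r with hH
  have hH' := isHalf_halfSet hr2 (r := r)
  have hne : ∀ v ∈ H, v ≠ 0 := fun v hv h0 ↦ hH'.1 (h0 ▸ hv)
  have key : ∀ i : ℕ, ∃ y : ℂ, IsIntegral ℤ y ∧
      coeff n (∑ v ∈ (univ : Finset (Fin 2 → ZMod r)).erase 0,
        hSer (zetaC r) v * PowerSeries.expand p hp.out.ne_zero
          (hSer (zetaC r) (sigmaV p i v))) = 8 * y := by
    intro i
    set P := PowerSeries.expand (R := ℂ) p hp.out.ne_zero with hP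
    have hne' : ∀ v ∈ H, sigmaV p i v ≠ 0 := fun v hv ↦ sigmaV_ne_zero hpr i (hne v hv)
    have e : ∑ v ∈ (univ : Finset (Fin 2 → ZMod r)).erase 0,
        hSer (zetaC r) v * P (hSer (zetaC r) (sigmaV p i v)) =
        (2 : ℂ) • ((H.card : PowerSeries ℂ) + (2 : ℂ) • (∑ v ∈ H, A v) +
          (2 : ℂ) • P (∑ v ∈ H.image (sigmaV p i), A v) +
          (4 : ℂ) • ∑ v ∈ H, A v * P (A (sigmaV p i v))) := by
      rw [hH'.sum_eq hr2, Finset.sum_image (sigmaV_injective hpr i).injOn, map_sum,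
        Finset.card_eq_sum_ones, Nat.cast_sum, Finset.smul_sum, Finset.smul_sum, Finset.smul_sum,
        ← Finset.sum_add_distrib, ← Finset.sum_add_distrib, ← Finset.sum_add_distrib,
        Finset.smul_sum]
      refine Finset.sum_congr rfl fun v hv ↦ ?_
      rw [sigmaV_neg, hSer_neg hr2 (hne v hv), hSer_neg hr2 (hne' v hv), map_neg,
        (hA v (hne v hv)).2, (hA _ (hne' v hv)).2, map_add, map_one, map_smul]
      simp only [smul_eq_C_mul, map_ofNat, Nat.cast_one]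
      ring
    obtain ⟨y1, hy1, e1⟩ := even_coeff_sum_half hr2 hH' (fun v hv ↦ (hA v hv).1)
      (fun v hv ↦ (hA v hv).2) n hn
    have hS' := even_coeff_sum_half hr2 (hH'.image hr2 hpr i) (fun v hv ↦ (hA v hv).1)
      (fun v hv ↦ (hA v hv).2)
    obtain ⟨y2, hy2, e2⟩ : EvenInt (coeff n (P (∑ v ∈ H.image (sigmaV p i), A v))) := by
      rw [hP, PowerSeries.coeff_expand]
      split_ifs with hd
      · exact hS' _ (Nat.div_pos (Nat.le_of_dvd (Nat.pos_of_ne_zero hn) hd) hp.out.pos).ne'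
      · exact ⟨0, isIntegral_zero, by simp⟩
    refine ⟨y1 + y2 + coeff n (∑ v ∈ H, A v * P (A (sigmaV p i v))),
      (hy1.add hy2).add (IntSer.sum H (fun v hv ↦ ((hA v (hne v hv)).1).mul
        (((hA _ (hne' v hv)).1).expand p hp.out.ne_zero)) n), ?_⟩
    rw [e]
    simp only [map_add, PowerSeries.coeff_smul, smul_eq_mul]
    rw [← map_natCast (PowerSeries.C (R := ℂ)), PowerSeries.coeff_C, if_neg hn, e1, e2]
    ring
  choose y hy hye using key
  refine ⟨∑ i ∈ range h, y i, IsIntegral.sum _ fun i _ ↦ hy i, ?_⟩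
  rw [prodSer, map_sum, Finset.mul_sum]
  exact Finset.sum_congr rfl fun i _ ↦ hye i

omit hr2 hpr hh hph in
theorem exists_rat_coeff (n : ℕ) :
    ∃ q : ℚ, coeff n (prodSer p hp.out.ne_zero h (zetaC r) r) = (q : ℂ) := by
  have : NeZero r := ⟨hr.out.ne_zero⟩
  let K := CyclotomicField r ℚ
  have hK : IsCyclotomicExtension {r} ℚ K := CyclotomicField.isCyclotomicExtension r ℚ
  have : IsGalois ℚ K := IsCyclotomicExtension.isGalois {r} ℚ K
  have : FiniteDimensional ℚ K := IsCyclotomicExtension.finiteDimensional {r} ℚ K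
  let ι : K →ₐ[ℚ] ℂ := IsAlgClosed.lift
  set ζ := IsCyclotomicExtension.zeta r ℚ K with hζdef
  have hζ : IsPrimitiveRoot ζ r := IsCyclotomicExtension.zeta_spec r ℚ K
  have hinv : ∀ (L : Type) [Field L] (z z' : L), IsPrimitiveRoot z r → IsPrimitiveRoot z' r →
      prodSer p hp.out.ne_zero h z r = prodSer p hp.out.ne_zero h z' r := by
    intro L _ z z' hz hz'
    obtain ⟨j, hj, rfl⟩ := hz'.eq_pow_of_pow_eq_one hz.pow_eq_one
    have hj0 : ((j : ℕ) : ZMod r) ≠ 0 := by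
      intro h0
      rw [ZMod.natCast_eq_zero_iff] at h0
      have hj1 : j = 0 := Nat.eq_zero_of_dvd_of_lt h0 hj
      exact hr.out.one_lt.ne' (by simpa [hj1] using hz.eq_orderOf)
    rw [← zpw_natCast hz'.pow_eq_one j, prodSer_zpw hz'.pow_eq_one _ _ hj0]
  have hfix : ∀ σ : K ≃ₐ[ℚ] K, σ (coeff n (prodSer p hp.out.ne_zero h ζ r)) =
      coeff n (prodSer p hp.out.ne_zero h ζ r) := by
    intro σ
    have e1 := congrArg (coeff n) (map_prodSer (r := r) (p := p) (σ : K →+* K) hp.out.ne_zero h ζ)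
    rw [PowerSeries.coeff_map] at e1
    exact e1.trans (by
      rw [hinv K _ ζ (hζ.map_of_injective (f := (σ : K →+* K)) σ.injective) hζ])
  obtain ⟨q, hq⟩ := (IsGalois.mem_bot_iff_fixed _).mpr hfix
  refine ⟨q, ?_⟩
  have e2 := congrArg (coeff n) (map_prodSer (r := r) (p := p) (ι : K →+* ℂ) hp.out.ne_zero h ζ)
  rw [PowerSeries.coeff_map, ← hq] at e2
  rw [hinv ℂ _ (zetaC r) (hζ.map_of_injective (f := (ι : K →+* ℂ)) ι.toRingHom.injective)
    isPrimitiveRoot_zetaC] at e2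
  rw [← e2]
  simp

omit hr2 hh hph in
theorem prodForm_slash (γ : SL(2, ℤ)) (hγ : γ ∈ Gamma0 p) :
    prodForm r p h ∣[(2 : ℤ)] γ = prodForm r p h := by
  have hd : (p : ℤ) ∣ γ 1 0 := (ZMod.intCast_zmod_eq_zero_iff_dvd _ _).mp (Gamma0_mem.mp hγ)
  have hσ : ∀ (i : ℕ) (v : Fin 2 → ZMod r),
      sigmaV p i v ᵥ* redMat r (conjGamma p γ hd) = sigmaV p i (v ᵥ* redMat r γ) := by
    obtain ⟨c, hc⟩ := hd
    intro i v
    funext k
    fin_cases k <;>
      simp [Matrix.vecMul, dotProduct, Fin.sum_univ_two, sigmaV, redMat, conjGamma, hc,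
        Int.mul_ediv_cancel_left _ (show (p : ℤ) ≠ 0 by simp [hp.out.ne_zero]), pow_succ] <;>
      ring
  ext z
  rw [ModularForm.SL_slash_apply]
  simp only [prodForm, mulNat_smul p γ hd, hFun_smul, hσ, denom_conjGamma, Finset.sum_mul]
  refine Finset.sum_congr rfl fun i _ ↦ ?_
  refine Finset.sum_nbij' (fun v ↦ v ᵥ* redMat r γ) (fun v ↦ v ᵥ* redMat r γ⁻¹)
    ?_ ?_ ?_ ?_ fun v _ ↦ ?_
  · exact fun w hw ↦ mem_erase.mpr ⟨vecMul_redMat_ne_zero (mem_erase.mp hw).1 γ, mem_univ _⟩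
  · exact fun w hw ↦ mem_erase.mpr ⟨vecMul_redMat_ne_zero (mem_erase.mp hw).1 _, mem_univ _⟩
  · intro w _; simp [Matrix.vecMul_vecMul, ← redMat_mul, redMat_one]
  · intro w _; simp [Matrix.vecMul_vecMul, ← redMat_mul, redMat_one]
  · have hne : denom γ z ≠ 0 := denom_ne_zero γ z
    simp only [_root_.zpow_neg, zpow_ofNat]
    field_simp

omit hh hph in
theorem isQSer_prodForm :
    IsQSer r (prodForm r p h) (prodSer p hp.out.ne_zero h (zetaC r) r) := by
  have hr0 : (0 : ℝ) < r := Nat.cast_pos.mpr hr.out.pos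
  have : IsQSer r (∑ i ∈ range h, ∑ v ∈ (univ : Finset (Fin 2 → ZMod r)).erase 0,
      hFun v * (hFun (sigmaV p i v) ∘ mulNat p)) (prodSer p hp.out.ne_zero h (zetaC r) r) :=
    IsQSer.sum _ fun i _ ↦ IsQSer.sum _ fun v hv ↦
      (isQSer_hFun hr2 (mem_erase.mp hv).1).mul hr0
        ((isQSer_hFun hr2 (sigmaV_ne_zero hpr i (mem_erase.mp hv).1)).comp_mul hp.out.ne_zero
          (coe_mulNat p))
  exact this.congr fun τ ↦ by simp [prodForm]

theorem tendsto_prodForm_slash_S :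
    ∃ L : ℂ, Tendsto (prodForm r p h ∣[(2 : ℤ)] S) atImInfty (𝓝 L) := by
  have hr0 : (0 : ℝ) < r := Nat.cast_pos.mpr hr.out.pos
  have hterm : ∀ v : Fin 2 → ZMod r, v ≠ 0 → ∃ L, Tendsto (hFun v) atImInfty (𝓝 L) :=
    fun v hv ↦ ⟨_, (isQSer_hFun hr2 hv).tendsto hr0⟩
  have hp0 : (p : ℂ) ≠ 0 := Nat.cast_ne_zero.mpr hp.out.ne_zero
  have heq : prodForm r p h ∣[(2 : ℤ)] S = fun z ↦
      ∑ i ∈ range h, ∑ v ∈ (univ : Finset (Fin 2 → ZMod r)).erase 0,
        hFun (v ᵥ* redMat r S) z * hFun (sigmaV p i v ᵥ* redMat r S) (divNat p z) / p := by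
    ext z
    have hz : (z : ℂ) ≠ 0 := ne_zero z
    rw [ModularForm.SL_slash_apply]
    simp only [prodForm, mulNat_S_smul, hFun_smul, Finset.sum_mul]
    simp only [ModularGroup.denom_S]
    refine Finset.sum_congr rfl fun i _ ↦ Finset.sum_congr rfl fun v _ ↦ ?_
    simp only [coe_divNat, _root_.zpow_neg, zpow_ofNat]
    field_simp
  choose! L hL using hterm
  rw [heq]
  exact ⟨_, tendsto_finsetSum _ fun i _ ↦ tendsto_finsetSum _ fun v hv ↦
    ((hL _ (vecMul_redMat_ne_zero (mem_erase.mp hv).1 S)).mul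
      ((hL _ (vecMul_redMat_ne_zero (sigmaV_ne_zero hpr i (mem_erase.mp hv).1) S)).comp
        (tendsto_divNat p))).div_const _⟩

/-- The auxiliary form, with its integral `q`-expansion. -/
theorem exists_prodForm_qSer :
    ∃ g : ℕ → ℤ, IsQSer 1 (prodForm r p h)
      (PowerSeries.mk fun n ↦ if n = 0 then 4 * (h : ℂ) * (r : ℂ) ^ 3 else 8 * (g n : ℂ)) := by
  have hper : Function.Periodic (prodForm r p h ∘ ofComplex) (1 : ℝ) := by
    intro w
    by_cases hw : 0 < w.im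
    · have hw' : 0 < (w + ((1 : ℝ) : ℂ)).im := by simpa using hw
      simp only [Function.comp_apply, ofComplex_apply_of_im_pos hw, ofComplex_apply_of_im_pos hw']
      have h1 := congr_fun (prodForm_slash (h := h) hpr T (by rw [Gamma0_mem]; simp [coe_T]))
        ⟨w, hw⟩
      rw [ModularForm.SL_slash_apply] at h1
      have h2 : T • (⟨w, hw⟩ : ℍ) = ⟨w + ((1 : ℝ) : ℂ), hw'⟩ := by
        ext1
        rw [UpperHalfPlane.modular_T_smul]
        simp [add_comm]
      rw [h2] at h1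
      rw [ModularGroup.denom_apply] at h1
      simpa [coe_T] using h1
    · have hw' : (w + ((1 : ℝ) : ℂ)).im ≤ 0 := by simpa using not_lt.mp hw
      simp only [Function.comp_apply]
      rw [ofComplex_apply_of_im_nonpos hw', ofComplex_apply_of_im_nonpos (not_lt.mp hw)]
  have hG := (isQSer_prodForm hr2 hpr (h := h))
  rw [show ((r : ℝ)) = (r : ℝ) * 1 by ring] at hG
  have hG1 := hG.descend one_pos hr.out.pos hper
  have hex : ∀ n : ℕ, ∃ g : ℤ, n ≠ 0 →
      coeff (r * n) (prodSer p hp.out.ne_zero h (zetaC r) r) = 8 * (g : ℂ) := by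
    intro n
    by_cases hn : n = 0
    · exact ⟨0, fun h0 ↦ absurd hn h0⟩
    · obtain ⟨y, hy, hye⟩ := exists_eight_mul_coeff hr2 hpr hh hph (r * n)
        (mul_ne_zero hr.out.ne_zero hn)
      obtain ⟨q, hq⟩ := exists_rat_coeff (r := r) (p := p) (h := h) (r * n)
      have hy' : ((q / 8 : ℚ) : ℂ) = y := by push_cast; rw [← hq, hye]; ring
      rw [← hy'] at hy
      have hq8 : IsIntegral ℤ (q / 8 : ℚ) :=
        (isIntegral_algebraMap_iff (A := ℚ) (B := ℂ) (algebraMap ℚ ℂ).injective).mp (by simpa using hy)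
      obtain ⟨g, hg⟩ := IsIntegrallyClosed.isIntegral_iff.mp hq8
      refine ⟨g, fun _ ↦ ?_⟩
      rw [hq]
      have : (q : ℂ) = 8 * ((q / 8 : ℚ) : ℂ) := by push_cast; ring
      rw [this, ← hg]
      simp
  choose g hg using hex
  refine ⟨g, ?_⟩
  convert hG1 using 1
  ext n
  simp only [PowerSeries.coeff_mk]
  split_ifs with hn
  · rw [hn, mul_zero, coeff_zero_prodSer hr2 hpr hh hph]
  · exact (hg n hn).symm

end Fermat.Agent.EIS

end
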