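import Mathlib.RingTheory.PowerSeries.Inverse
import Mathlib.RingTheory.PowerSeries.Expand
import Mathlib.RingTheory.RootsOfUnity.PrimitiveRoots
import Mathlib.RingTheory.IntegralClosure.IntegralRestrict
import Mathlib.Data.ZMod.ValMinAbs
import Mathlib.Algebra.Field.ZMod
import Mathlib.Algebra.Field.GeomSum
import Mathlib.Algebra.Ring.Parity
import Mathlib.NumberTheory.Divisors

/-!
# Power series of the weight one Eisenstein series attached to `r`-torsion points

For `k = 3, 4` the series `eisP k ζ v` is the normalised expansion of the weight `k` Eisenstein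
series attached to `v ∈ (ℤ/r)²`; `hSer ζ v` is `r` times the quotient of the weight four by the
weight three series. Here we prove its integrality and congruence modulo 2.
-/

set_option autoImplicit false
set_option linter.unusedSectionVars false

noncomputable section

open Finset PowerSeries

namespace Fermat.Agent.EIS

variable {L : Type*} [Field L] {r : ℕ}

/-- All coefficients are algebraic integers. -/
def IntSer (S : PowerSeries L) : Prop := ∀ n, IsIntegral ℤ (coeff n S)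

theorem IntSer.add {S S' : PowerSeries L} (h : IntSer S) (h' : IntSer S') : IntSer (S + S') :=
  fun n ↦ by simpa using (h n).add (h' n)

theorem IntSer.mul {S S' : PowerSeries L} (h : IntSer S) (h' : IntSer S') : IntSer (S * S') :=
  fun n ↦ by
    rw [coeff_mul]
    exact IsIntegral.sum _ fun i _ ↦ (h i.1).mul (h' i.2)

theorem IntSer.smul {S : PowerSeries L} {c : L} (hc : IsIntegral ℤ c) (h : IntSer S) :
    IntSer (c • S) := fun n ↦ by simpa using hc.mul (h n)

theorem IntSer.neg {S : PowerSeries L} (h : IntSer S) : IntSer (-S) :=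
  fun n ↦ by simpa using (h n).neg

theorem IntSer.sum {ι : Type*} (s : Finset ι) {S : ι → PowerSeries L}
    (h : ∀ i ∈ s, IntSer (S i)) : IntSer (∑ i ∈ s, S i) :=
  fun n ↦ by rw [map_sum]; exact IsIntegral.sum _ fun i hi ↦ h i hi n

theorem intSer_C {c : L} (hc : IsIntegral ℤ c) : IntSer (PowerSeries.C c) := fun n ↦ by
  rw [coeff_C]
  split_ifs
  exacts [hc, isIntegral_zero]

theorem IntSer.expand {S : PowerSeries L} (h : IntSer S) (p : ℕ) (hp : p ≠ 0) :
    IntSer (PowerSeries.expand p hp S) := fun n ↦ by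
  rw [coeff_expand]
  split_ifs
  exacts [h _, isIntegral_zero]

theorem IntSer.inv {S : PowerSeries L} (h : IntSer S)
    (h0 : IsIntegral ℤ (constantCoeff S)⁻¹) : IntSer S⁻¹ := by
  intro n
  induction n using Nat.strong_induction_on with
  | _ n ih =>
    rw [coeff_inv]
    split_ifs
    · exact h0
    · refine h0.neg.mul (IsIntegral.sum _ fun x _ ↦ ?_)
      split_ifs with hx
      · exact (h _).mul (ih _ hx)
      · exact isIntegral_zero

theorem isInt_nat (n : ℕ) : IsIntegral ℤ (n : L) := by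
  simpa using (isIntegral_algebraMap (R := ℤ) (A := L) (x := (n : ℤ)))

theorem isInt_int (n : ℤ) : IsIntegral ℤ (n : L) := by
  simpa using (isIntegral_algebraMap (R := ℤ) (A := L) (x := n))

/-- `ζ` to a power in `ZMod r`. -/
def zpw (ζ : L) (x : ZMod r) : L := ζ ^ x.val

theorem isIntegral_zpw {ζ : L} [NeZero r] (hζ : ζ ^ r = 1) (x : ZMod r) :
    IsIntegral ℤ (zpw ζ x) :=
  (IsIntegral.of_pow (NeZero.pos r) (by rw [hζ]; exact isIntegral_one)).pow _

theorem zpw_natCast {ζ : L} (hζ : ζ ^ r = 1) (m : ℕ) : zpw ζ (m : ZMod r) = ζ ^ m := by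
  rw [zpw, ZMod.val_natCast, ← pow_eq_pow_mod m hζ]

theorem zpw_add {ζ : L} [NeZero r] (hζ : ζ ^ r = 1) (x y : ZMod r) :
    zpw ζ (x + y) = zpw ζ x * zpw ζ y := by
  rw [zpw, zpw, zpw, ← pow_add, ZMod.val_add, ← pow_eq_pow_mod _ hζ]

theorem zpw_mul {ζ : L} [NeZero r] (hζ : ζ ^ r = 1) (j x : ZMod r) :
    zpw (zpw ζ j) x = zpw ζ (j * x) := by
  simp only [zpw]
  rw [← pow_mul, ZMod.val_mul, ← pow_eq_pow_mod _ hζ]

theorem map_zpw {L' : Type*} [Field L'] (f : L →+* L') (ζ : L) (x : ZMod r) :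
    f (zpw ζ x) = zpw (f ζ) x := map_pow f ζ _

/-- `∑ m^(k-1) w^m` as a rational function, for `k = 3, 4`. -/
def eisR (k : ℕ) (w : L) : L :=
  if k = 3 then w * (1 + w) / (1 - w) ^ 3 else w * (1 + 4 * w + w ^ 2) / (1 - w) ^ 4

theorem map_eisR {L' : Type*} [Field L'] (f : L →+* L') (k : ℕ) (w : L) :
    f (eisR k w) = eisR k (f w) := by
  unfold eisR
  split_ifs <;> simp [map_div₀, map_ofNat]

/-- The coefficient of `t^n`, `n ≥ 1`. -/
def eisCoef (k : ℕ) (ζ : L) (v : Fin 2 → ZMod r) (n : ℕ) : L :=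
  ∑ m ∈ n.divisors, (m : L) ^ (k - 1) *
    ((if ((n / m : ℕ) : ZMod r) = v 0 then zpw ζ (v 1 * (m : ZMod r)) else 0) +
      (-1) ^ k * (if -((n / m : ℕ) : ZMod r) = v 0 then zpw ζ (-(v 1 * (m : ZMod r))) else 0))

/-- The normalised series of the weight `k` Eisenstein series at `v`. -/
def eisP (k : ℕ) (ζ : L) (v : Fin 2 → ZMod r) : PowerSeries L :=
  PowerSeries.mk fun n ↦
    if n = 0 then (if v 0 = 0 then eisR k (zpw ζ (v 1)) else 0) else eisCoef k ζ v n

theorem map_eisP {L' : Type*} [Field L'] (f : L →+* L') (k : ℕ) (ζ : L) (v : Fin 2 → ZMod r) :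
    PowerSeries.map f (eisP k ζ v) = eisP k (f ζ) v := by
  ext n
  simp only [PowerSeries.coeff_map, eisP, coeff_mk]
  split_ifs <;> simp [eisCoef, map_sum, map_eisR, map_zpw, apply_ite f]

theorem eisP_zpw (k : ℕ) {ζ : L} [NeZero r] (hζ : ζ ^ r = 1) (j : ZMod r) (v : Fin 2 → ZMod r) :
    eisP k (zpw ζ j) v = eisP k ζ ![v 0, j * v 1] := by
  ext n
  simp [eisP, eisCoef, zpw_mul hζ, mul_assoc]

/-- The order of vanishing. -/
def eisOrd (v : Fin 2 → ZMod r) : ℕ := (v 0).valMinAbs.natAbs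

/-- The leading coefficient. -/
def eisLead (k : ℕ) (ζ : L) (v : Fin 2 → ZMod r) : L :=
  if v 0 = 0 then eisR k (zpw ζ (v 1)) else
    if (eisOrd v : ZMod r) = v 0 then zpw ζ (v 1) else (-1) ^ k * zpw ζ (-v 1)

/-- The series divided by its power of the variable. -/
def eisShift (k : ℕ) (ζ : L) (v : Fin 2 → ZMod r) : PowerSeries L :=
  PowerSeries.mk fun n ↦ coeff (n + eisOrd v) (eisP k ζ v)

/-- The normalising factor. -/
def eisScale (ζ : L) (v : Fin 2 → ZMod r) : L :=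
  if v 0 = 0 then (1 - zpw ζ (v 1)) ^ 3 else 1

/-- Denominator of `hSer`. -/
def hDen (ζ : L) (v : Fin 2 → ZMod r) : PowerSeries L := eisScale ζ v • eisShift 3 ζ v

/-- Numerator of `hSer`. -/
def hNum (ζ : L) (v : Fin 2 → ZMod r) : PowerSeries L :=
  ((r : L) * eisScale ζ v) • eisShift 4 ζ v

/-- `r` times the quotient of the weight four by the weight three series. -/
def hSer (ζ : L) (v : Fin 2 → ZMod r) : PowerSeries L := hNum ζ v * (hDen ζ v)⁻¹

theorem map_eisScale {L' : Type*} [Field L'] (f : L →+* L') (ζ : L) (v : Fin 2 → ZMod r) :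
    f (eisScale ζ v) = eisScale (f ζ) v := by
  simp [eisScale, apply_ite f, map_zpw]

theorem map_eisShift {L' : Type*} [Field L'] (f : L →+* L') (k : ℕ) (ζ : L)
    (v : Fin 2 → ZMod r) : PowerSeries.map f (eisShift k ζ v) = eisShift k (f ζ) v := by
  ext n
  simp [eisShift, ← map_eisP f]

variable [hr : Fact r.Prime]

theorem map_pSer_inv {L' : Type*} [Field L'] (f : L →+* L') (S : PowerSeries L) :
    PowerSeries.map f S⁻¹ = (PowerSeries.map f S)⁻¹ := by
  rcases eq_or_ne (constantCoeff S) 0 with h | h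
  · rw [PowerSeries.inv_eq_zero.mpr h, map_zero, eq_comm, PowerSeries.inv_eq_zero]
    rw [← coeff_zero_eq_constantCoeff_apply, PowerSeries.coeff_map,
      coeff_zero_eq_constantCoeff_apply, h, map_zero]
  · rw [PowerSeries.eq_inv_iff_mul_eq_one, ← map_mul, PowerSeries.inv_mul_cancel S h, map_one]
    rw [← coeff_zero_eq_constantCoeff_apply, PowerSeries.coeff_map,
      coeff_zero_eq_constantCoeff_apply]
    exact (map_ne_zero f).mpr h

theorem map_hSer {L' : Type*} [Field L'] (f : L →+* L') (ζ : L) (v : Fin 2 → ZMod r) :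
    PowerSeries.map f (hSer ζ v) = hSer (f ζ) v := by
  have hs : ∀ (c : L) (S : PowerSeries L),
      PowerSeries.map f (c • S) = f c • PowerSeries.map f S := fun c S ↦ by ext n; simp
  simp [hSer, hNum, hDen, map_pSer_inv, hs, map_eisShift, map_eisScale]

theorem hSer_zpw {ζ : L} (hζ : ζ ^ r = 1) (j : ZMod r) (v : Fin 2 → ZMod r) :
    hSer (zpw ζ j) v = hSer ζ ![v 0, j * v 1] := by
  simp [hSer, hNum, hDen, eisShift, eisScale, eisOrd, eisP_zpw _ hζ, zpw_mul hζ]

theorem eisOrd_le {v : Fin 2 → ZMod r} {x : ℕ}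
    (h : (x : ZMod r) = v 0 ∨ -(x : ZMod r) = v 0) : eisOrd v ≤ x := by
  by_cases hx : x ≤ r / 2
  · have h1 : ((x : ZMod r)).valMinAbs = (x : ℤ) := by
      rw [ZMod.valMinAbs_spec]
      refine ⟨by simp, Set.mem_Ioc.mpr ⟨?_, ?_⟩⟩
      · have := hr.out.pos
        omega
      · omega
    rcases h with h | h <;> simp [eisOrd, ← h, h1, ZMod.natAbs_valMinAbs_neg]
  · exact (ZMod.natAbs_valMinAbs_le _).trans (by omega)

theorem eisOrd_eq_or (v : Fin 2 → ZMod r) :
    (eisOrd v : ZMod r) = v 0 ∨ -(eisOrd v : ZMod r) = v 0 := by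
  have h := (v 0).coe_valMinAbs
  rcases (v 0).valMinAbs.natAbs_eq with h' | h'
  · left; rw [h'] at h; simpa [eisOrd] using h
  · right; rw [h'] at h; simpa [eisOrd] using h

theorem eisOrd_eq_zero_iff (v : Fin 2 → ZMod r) : eisOrd v = 0 ↔ v 0 = 0 := by
  simp [eisOrd]

theorem coeff_eisP_of_lt {k : ℕ} (ζ : L) (v : Fin 2 → ZMod r) {n : ℕ} (hn : n < eisOrd v) :
    coeff n (eisP k ζ v) = 0 := by
  have hv : v 0 ≠ 0 := fun h ↦ by simp [(eisOrd_eq_zero_iff v).mpr h] at hn
  rw [eisP, coeff_mk]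
  rcases eq_or_ne n 0 with rfl | hn0
  · simp [hv]
  · rw [if_neg hn0, eisCoef]
    refine Finset.sum_eq_zero fun m _ ↦ ?_
    have h1 : ((n / m : ℕ) : ZMod r) ≠ v 0 := fun h ↦ by
      have := eisOrd_le (v := v) (Or.inl h); have := Nat.div_le_self n m; omega
    have h2 : -((n / m : ℕ) : ZMod r) ≠ v 0 := fun h ↦ by
      have := eisOrd_le (v := v) (Or.inr h); have := Nat.div_le_self n m; omega
    simp [h1, h2]

variable (hr2 : r ≠ 2)
include hr2

theorem two_ne_zero_zmod : (2 : ZMod r) ≠ 0 := by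
  intro h
  have : ((2 : ℕ) : ZMod r) = 0 := by exact_mod_cast h
  have := Nat.le_of_dvd two_pos ((ZMod.natCast_eq_zero_iff 2 r).mp this)
  have := hr.out.two_le
  omega

theorem coeff_eisShift_zero (k : ℕ) (ζ : L) (v : Fin 2 → ZMod r) :
    coeff 0 (eisShift k ζ v) = eisLead k ζ v := by
  rw [eisShift, coeff_mk, zero_add, eisP, coeff_mk, eisLead]
  by_cases hv : v 0 = 0
  · simp [(eisOrd_eq_zero_iff v).mpr hv, hv]
  · have h0 : eisOrd v ≠ 0 := mt (eisOrd_eq_zero_iff v).mp hv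
    rw [if_neg h0, if_neg hv, eisCoef,
      Finset.sum_eq_single_of_mem 1 (Nat.one_mem_divisors.mpr h0)]
    · simp only [Nat.div_one, Nat.cast_one, one_pow, one_mul, mul_one]
      rcases eisOrd_eq_or v with h | h
      · have h2 : ¬ -(eisOrd v : ZMod r) = v 0 := fun h' ↦ by
          rw [h] at h'
          have h3 : (2 : ZMod r) * v 0 = 0 := by linear_combination -h'
          exact hv ((mul_eq_zero.mp h3).resolve_left (two_ne_zero_zmod hr2))
        rw [if_pos h, if_pos h, if_neg h2, mul_zero, add_zero]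
      · have h2 : ¬ (eisOrd v : ZMod r) = v 0 := fun h' ↦ by
          rw [h'] at h
          have h3 : (2 : ZMod r) * v 0 = 0 := by linear_combination -h
          exact hv ((mul_eq_zero.mp h3).resolve_left (two_ne_zero_zmod hr2))
        rw [if_pos h, if_neg h2, if_neg h2, zero_add]
    · intro m hm hm1
      have hmd := Nat.dvd_of_mem_divisors hm
      have hm0 : 0 < m := Nat.pos_of_mem_divisors hm
      have hlt : eisOrd v / m < eisOrd v :=
        Nat.div_lt_self (Nat.pos_of_ne_zero h0) (by omega)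
      have h1 : ((eisOrd v / m : ℕ) : ZMod r) ≠ v 0 := fun h ↦ by
        have := eisOrd_le (v := v) (Or.inl h); omega
      have h2 : -((eisOrd v / m : ℕ) : ZMod r) ≠ v 0 := fun h ↦ by
        have := eisOrd_le (v := v) (Or.inr h); omega
      simp [h1, h2]

variable {ζ : L} (hζ : IsPrimitiveRoot ζ r)
include hζ

theorem zpw_ne_one {x : ZMod r} (hx : x ≠ 0) : zpw ζ x ≠ 1 :=
  hζ.pow_ne_one_of_pos_of_lt (by simpa using hx) x.val_lt

theorem zpw_sq_ne_one {x : ZMod r} (hx : x ≠ 0) : zpw ζ x ^ 2 ≠ 1 := by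
  have := zpw_ne_one hr2 hζ (x := x + x)
    (by rw [← two_mul]; exact mul_ne_zero (two_ne_zero_zmod hr2) hx)
  rwa [zpw_add hζ.pow_eq_one, ← sq] at this

theorem zpw_pow_r (x : ZMod r) : zpw ζ x ^ r = 1 := by
  rw [zpw, ← pow_mul, mul_comm, pow_mul, hζ.pow_eq_one, one_pow]

/-- `r/(1-w)` is an algebraic integer. -/
def rhoInt (r : ℕ) (w : L) : L := -∑ i ∈ Finset.range r, (i : L) * w ^ i

theorem one_sub_mul_rho {w : L} (hw : w ≠ 1) (hwr : w ^ r = 1) :
    (1 - w) * rhoInt r w = r := by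
  have hs : ∀ n : ℕ, (1 - w) * (-∑ i ∈ Finset.range n, (i : L) * w ^ i) =
      (n : L) * w ^ n - ∑ i ∈ Finset.range n, w ^ (i + 1) := by
    intro n
    induction n with
    | zero => simp
    | succ n ih =>
      rw [Finset.sum_range_succ, Finset.sum_range_succ, neg_add, mul_add, ih]
      push_cast
      ring
  rw [rhoInt, hs r, hwr, mul_one]
  have : ∑ i ∈ Finset.range r, w ^ (i + 1) = 0 := by
    rw [Finset.sum_congr rfl fun i _ ↦ pow_succ' w i, ← Finset.mul_sum, geom_sum_eq hw, hwr]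
    simp
  rw [this, sub_zero]

theorem one_add_mul_geom {w : L} (hw : w ^ 2 ≠ 1) (hwr : w ^ r = 1) :
    (1 + w) * ∑ i ∈ Finset.range ((r + 1) / 2), (w ^ 2) ^ i = 1 := by
  have hodd : Odd r := hr.out.odd_of_ne_two hr2
  have h2 : 2 * ((r + 1) / 2) = r + 1 := by obtain ⟨j, rfl⟩ := hodd; omega
  have hw' : w ≠ 1 := fun h ↦ hw (by simp [h])
  rw [geom_sum_eq hw, ← pow_mul, h2, pow_succ', hwr, mul_one]
  field_simp [sub_ne_zero.mpr hw]
  ring

theorem eisScale_mul_eisR3 {w : L} (hw : w ≠ 1) :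
    (1 - w) ^ 3 * eisR 3 w = w * (1 + w) := by
  rw [eisR, if_pos rfl]
  field_simp [sub_ne_zero.mpr hw.symm]

theorem eisScale_mul_eisR4 {w : L} (hw : w ≠ 1) (hwr : w ^ r = 1) :
    (r : L) * (1 - w) ^ 3 * eisR 4 w = w * (rhoInt r w * (1 + 4 * w + w ^ 2)) := by
  rw [eisR, if_neg (by norm_num), ← one_sub_mul_rho hr2 hζ hw hwr]
  field_simp [sub_ne_zero.mpr hw.symm]

theorem v1_ne_zero {v : Fin 2 → ZMod r} (hv : v ≠ 0) (h0 : v 0 = 0) : v 1 ≠ 0 := by
  intro h1
  exact hv (funext fun i ↦ by fin_cases i <;> assumption)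

theorem constantCoeff_hDen {v : Fin 2 → ZMod r} (hv : v ≠ 0) :
    constantCoeff (hDen ζ v) ≠ 0 ∧ IsIntegral ℤ (constantCoeff (hDen ζ v))⁻¹ := by
  rw [← coeff_zero_eq_constantCoeff_apply, hDen, PowerSeries.coeff_smul,
    coeff_eisShift_zero hr2, smul_eq_mul, eisScale, eisLead]
  by_cases h0 : v 0 = 0
  · set w := zpw ζ (v 1) with hw
    have h1 := v1_ne_zero hr2 hζ hv h0
    rw [if_pos h0, if_pos h0, eisScale_mul_eisR3 hr2 hζ (zpw_ne_one hr2 hζ h1)]
    have hwr := zpw_pow_r hr2 hζ (v 1)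
    have hu := one_add_mul_geom hr2 hζ (zpw_sq_ne_one hr2 hζ h1) hwr
    have hwpow : w ^ (r - 1) * w = 1 := by
      rw [← pow_succ, Nat.sub_add_cancel hr.out.one_le, hwr]
    have key : w * (1 + w) *
        (w ^ (r - 1) * ∑ i ∈ Finset.range ((r + 1) / 2), (w ^ 2) ^ i) = 1 := by
      linear_combination ((1 + w) * ∑ i ∈ Finset.range ((r + 1) / 2), (w ^ 2) ^ i) * hwpow + hu
    refine ⟨left_ne_zero_of_mul_eq_one key, ?_⟩
    rw [inv_eq_of_mul_eq_one_right key]
    exact ((isIntegral_zpw hζ.pow_eq_one _).pow _).mul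
      (IsIntegral.sum _ fun i _ ↦ ((isIntegral_zpw hζ.pow_eq_one _).pow _).pow _)
  · rw [if_neg h0, if_neg h0, one_mul]
    have hz : ∀ x : ZMod r, zpw ζ x * zpw ζ (-x) = 1 := fun x ↦ by
      rw [← zpw_add hζ.pow_eq_one, add_neg_cancel, zpw, ZMod.val_zero, pow_zero]
    split_ifs
    · exact ⟨left_ne_zero_of_mul_eq_one (hz _), by
        rw [inv_eq_of_mul_eq_one_right (hz _)]; exact isIntegral_zpw hζ.pow_eq_one _⟩
    · have key : (-1 : L) ^ 3 * zpw ζ (-v 1) * (-zpw ζ (v 1)) = 1 := by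
        linear_combination hz (v 1)
      exact ⟨left_ne_zero_of_mul_eq_one key, by
        rw [inv_eq_of_mul_eq_one_right key]; exact (isIntegral_zpw hζ.pow_eq_one _).neg⟩

omit hr2 in
theorem isIntegral_eisScale (v : Fin 2 → ZMod r) : IsIntegral ℤ (eisScale ζ v) := by
  unfold eisScale
  split_ifs
  · exact (isIntegral_one.sub (isIntegral_zpw hζ.pow_eq_one _)).pow _
  · exact isIntegral_one

omit hr2 in
theorem isIntegral_eisCoef (k : ℕ) (v : Fin 2 → ZMod r) (n : ℕ) :
    IsIntegral ℤ (eisCoef k ζ v n) := by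
  have := @isIntegral_zpw L _ r ζ _ hζ.pow_eq_one
  refine IsIntegral.sum _ fun m _ ↦ ((isInt_nat m).pow _).mul ?_
  refine IsIntegral.add ?_ ((isIntegral_one.neg.pow _).mul ?_) <;> split_ifs <;>
    first | exact this _ | exact isIntegral_zero

theorem intSer_hDen {v : Fin 2 → ZMod r} (hv : v ≠ 0) : IntSer (hDen ζ v) := by
  intro n
  rw [hDen, PowerSeries.coeff_smul, smul_eq_mul]
  rcases eq_or_ne (n + eisOrd v) 0 with h | h
  · obtain ⟨rfl, ho⟩ := Nat.add_eq_zero_iff.mp h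
    rw [coeff_eisShift_zero hr2, eisLead, eisScale]
    have h0 := (eisOrd_eq_zero_iff v).mp ho
    rw [if_pos h0, if_pos h0,
      eisScale_mul_eisR3 hr2 hζ (zpw_ne_one hr2 hζ (v1_ne_zero hr2 hζ hv h0))]
    exact (isIntegral_zpw hζ.pow_eq_one _).mul
      (isIntegral_one.add (isIntegral_zpw hζ.pow_eq_one _))
  · rw [eisShift, coeff_mk, eisP, coeff_mk, if_neg h]
    exact (isIntegral_eisScale hζ v).mul (isIntegral_eisCoef hζ 3 v _)

/-- Numerator and denominator of `hSer` are congruent modulo `2`. -/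
theorem exists_half [CharZero L] {v : Fin 2 → ZMod r} (hv : v ≠ 0) :
    ∃ A : PowerSeries L, IntSer A ∧ hNum ζ v - hDen ζ v = (2 : L) • A := by
  refine ⟨(2 : L)⁻¹ • (hNum ζ v - hDen ζ v), ?_, by rw [smul_smul, mul_inv_cancel₀ two_ne_zero,
    one_smul]⟩
  intro n
  simp only [PowerSeries.coeff_smul, map_sub, smul_eq_mul, hNum, hDen, eisShift, coeff_mk]
  obtain ⟨j, hj⟩ := hr.out.odd_of_ne_two hr2
  rcases eq_or_ne (n + eisOrd v) 0 with h | h
  · obtain ⟨rfl, ho⟩ := Nat.add_eq_zero_iff.mp h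
    have h0 := (eisOrd_eq_zero_iff v).mp ho
    simp only [eisP, coeff_mk, zero_add, ho, ↓reduceIte, h0, eisScale]
    set w := zpw ζ (v 1) with hw
    have hw1 := zpw_ne_one hr2 hζ (v1_ne_zero hr2 hζ hv h0)
    have hwr := zpw_pow_r hr2 hζ (v 1)
    have hρ := one_sub_mul_rho hr2 hζ hw1 hwr
    rw [eisScale_mul_eisR3 hr2 hζ hw1, eisScale_mul_eisR4 hr2 hζ hw1 hwr]
    have key : w * (rhoInt r w * (1 + 4 * w + w ^ 2)) - w * (1 + w) =
        2 * (w * ((j : L) * (1 + w) + rhoInt r w * (w ^ 2 + 2 * w))) := by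
      have hjr : (r : L) = 2 * j + 1 := by exact_mod_cast hj
      linear_combination w * (1 + w) * hρ + w * (1 + w) * hjr
    rw [key, ← mul_assoc, inv_mul_cancel₀ (two_ne_zero' L), one_mul]
    have hwi : IsIntegral ℤ w := isIntegral_zpw hζ.pow_eq_one _
    have hρi : IsIntegral ℤ (rhoInt r w) :=
      (IsIntegral.sum _ fun i _ ↦ (isInt_nat i).mul (hwi.pow _)).neg
    refine hwi.mul (((isInt_nat j).mul (isIntegral_one.add hwi)).add
      (hρi.mul ((hwi.pow _).add ?_)))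
    exact (isInt_nat 2).mul hwi
  · simp only [eisP, coeff_mk, if_neg h, eisCoef]
    rw [show ∀ (a c : L) (s : Finset ℕ) (f g : ℕ → L),
        2⁻¹ * (a * c * ∑ m ∈ s, f m - c * ∑ m ∈ s, g m) =
          c * ∑ m ∈ s, 2⁻¹ * (a * f m - g m) from fun a c s f g ↦ by
      simp only [← Finset.mul_sum, Finset.sum_sub_distrib]; ring]
    refine (isIntegral_eisScale hζ v).mul (IsIntegral.sum _ fun m _ ↦ ?_)
    set X : L := if (((n + eisOrd v) / m : ℕ) : ZMod r) = v 0 then zpw ζ (v 1 * (m : ZMod r)) else 0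
      with hX
    set Y : L := if -(((n + eisOrd v) / m : ℕ) : ZMod r) = v 0 then zpw ζ (-(v 1 * (m : ZMod r))) else 0
      with hY
    have hXi : IsIntegral ℤ X := by
      rw [hX]; split_ifs <;> [exact isIntegral_zpw hζ.pow_eq_one _; exact isIntegral_zero]
    have hYi : IsIntegral ℤ Y := by
      rw [hY]; split_ifs <;> [exact isIntegral_zpw hζ.pow_eq_one _; exact isIntegral_zero]
    obtain ⟨a, ha⟩ : (2 : ℤ) ∣ (r : ℤ) * (m : ℤ) ^ 3 - (m : ℤ) ^ 2 := by
      rw [← even_iff_two_dvd]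
      simp [parity_simps, hj]
    obtain ⟨b, hb⟩ : (2 : ℤ) ∣ (r : ℤ) * (m : ℤ) ^ 3 + (m : ℤ) ^ 2 := by
      rw [← even_iff_two_dvd]
      simp [parity_simps, hj]
    have ha' : (r : L) * (m : L) ^ 3 - (m : L) ^ 2 = 2 * (a : L) := by exact_mod_cast ha
    have hb' : (r : L) * (m : L) ^ 3 + (m : L) ^ 2 = 2 * (b : L) := by exact_mod_cast hb
    have key : 2⁻¹ * ((r : L) * ((m : L) ^ (4 - 1) * (X + (-1) ^ 4 * Y)) -
        (m : L) ^ (3 - 1) * (X + (-1) ^ 3 * Y)) = (a : L) * X + (b : L) * Y := by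
      rw [inv_mul_eq_iff_eq_mul₀ (two_ne_zero' L)]
      simp only [Nat.reduceSub]
      linear_combination X * ha' + Y * hb'
    rw [key]
    exact ((isInt_int a).mul hXi).add ((isInt_int b).mul hYi)

/-- `hSer` is integral and congruent to `1` modulo `2`. -/
theorem exists_hSer_eq [CharZero L] {v : Fin 2 → ZMod r} (hv : v ≠ 0) :
    ∃ A : PowerSeries L, IntSer A ∧ hSer ζ v = 1 + (2 : L) • A := by
  obtain ⟨A, hA, h⟩ := exists_half hr2 hζ hv
  obtain ⟨h0, h1⟩ := constantCoeff_hDen hr2 hζ hv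
  refine ⟨A * (hDen ζ v)⁻¹, hA.mul ((intSer_hDen hr2 hζ hv).inv h1), ?_⟩
  rw [hSer, eq_add_of_sub_eq h, add_mul, PowerSeries.mul_inv_cancel _ h0, smul_mul_assoc]
  ring

end Fermat.Agent.EIS

end
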