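import Fermat.Agent.EIS.QSer
import Fermat.Agent.EIS.TorsionSeries
import Mathlib.NumberTheory.ModularForms.EisensteinSeries.QExpansion
import Mathlib.Analysis.Normed.Group.Tannery
import Mathlib.RingTheory.RootsOfUnity.Complex

/-!
# Eisenstein series of weight 3 and 4 attached to `r`-torsion points, and their `q`-series
-/

set_option autoImplicit false
set_option linter.unusedSectionVars false

noncomputable section

open Filter UpperHalfPlane Topology EisensteinSeries Matrix Finset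
open scoped Real MatrixGroups ModularForm Nat

namespace Fermat.Agent.EIS

local notation "𝕢" => Function.Periodic.qParam

variable {r : ℕ}

variable (r) in
/-- The standard primitive `r`-th root of unity. -/
def zetaC : ℂ := Complex.exp (2 * π * Complex.I / r)

theorem isPrimitiveRoot_zetaC [NeZero r] : IsPrimitiveRoot (zetaC r) r :=
  Complex.isPrimitiveRoot_exp r (NeZero.ne r)

/-- Weight `k` Eisenstein series summed over a congruence class modulo `r`. -/
def eisF (k : ℕ) (v : Fin 2 → ZMod r) (z : ℍ) : ℂ :=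
  ∑' x : {x : Fin 2 → ℤ // (fun i ↦ (x i : ZMod r)) = v}, eisSummand k x.1 z

theorem castVec_vecMul (x : Fin 2 → ℤ) (γ : SL(2, ℤ)) :
    (fun i ↦ ((x ᵥ* (γ : Matrix (Fin 2) (Fin 2) ℤ)) i : ZMod r)) =
      (fun i ↦ (x i : ZMod r)) ᵥ*
        ((γ : Matrix (Fin 2) (Fin 2) ℤ).map (Int.castRingHom (ZMod r))) := by
  funext i
  exact RingHom.map_vecMul (Int.castRingHom (ZMod r)) _ x i

variable (r) in
/-- Reduction of a matrix in `SL(2, ℤ)` modulo `r`. -/
def redMat (γ : SL(2, ℤ)) : Matrix (Fin 2) (Fin 2) (ZMod r) :=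
  (γ : Matrix (Fin 2) (Fin 2) ℤ).map (Int.castRingHom (ZMod r))

theorem redMat_mul (γ δ : SL(2, ℤ)) : redMat r (γ * δ) = redMat r γ * redMat r δ := by
  rw [redMat, redMat, redMat, Matrix.SpecialLinearGroup.coe_mul, Matrix.map_mul]

theorem redMat_one : redMat r (1 : SL(2, ℤ)) = 1 := by simp [redMat]

/-- The action of `SL(2, ℤ)` on congruence classes. -/
def eisIndexEquiv (v : Fin 2 → ZMod r) (γ : SL(2, ℤ)) :
    {x : Fin 2 → ℤ // (fun i ↦ (x i : ZMod r)) = v} ≃
      {x : Fin 2 → ℤ // (fun i ↦ (x i : ZMod r)) = v ᵥ* redMat r γ} where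
  toFun x := ⟨x.1 ᵥ* (γ : Matrix (Fin 2) (Fin 2) ℤ), by rw [castVec_vecMul, x.2]; rfl⟩
  invFun x := ⟨x.1 ᵥ* ((γ⁻¹ : SL(2, ℤ)) : Matrix (Fin 2) (Fin 2) ℤ), by
    rw [castVec_vecMul, x.2, ← redMat, Matrix.vecMul_vecMul, ← redMat_mul, mul_inv_cancel,
      redMat_one, Matrix.vecMul_one]⟩
  left_inv x := Subtype.ext <| by
    dsimp only
    rw [Matrix.vecMul_vecMul, ← Matrix.SpecialLinearGroup.coe_mul, mul_inv_cancel,
      Matrix.SpecialLinearGroup.coe_one, Matrix.vecMul_one]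
  right_inv x := Subtype.ext <| by
    dsimp only
    rw [Matrix.vecMul_vecMul, ← Matrix.SpecialLinearGroup.coe_mul, inv_mul_cancel,
      Matrix.SpecialLinearGroup.coe_one, Matrix.vecMul_one]

theorem eisF_smul (k : ℕ) (v : Fin 2 → ZMod r) (γ : SL(2, ℤ)) (z : ℍ) :
    eisF k v (γ • z) = denom γ z ^ k * eisF k (v ᵥ* redMat r γ) z := by
  simp only [eisF, eisSummand_SL2_apply, tsum_mul_left, zpow_natCast]
  congr 1
  exact (eisIndexEquiv v γ).tsum_eq (fun x ↦ eisSummand k x.1 z)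

theorem eisF_neg (k : ℕ) (v : Fin 2 → ZMod r) (z : ℍ) :
    eisF k (-v) z = (-1) ^ k * eisF k v z := by
  let e : {x : Fin 2 → ℤ // (fun i ↦ (x i : ZMod r)) = v} ≃
      {x : Fin 2 → ℤ // (fun i ↦ (x i : ZMod r)) = -v} :=
    (Equiv.neg (Fin 2 → ℤ)).subtypeEquiv fun x ↦ by
      simp [funext_iff, neg_eq_iff_eq_neg]
  rw [eisF, eisF, ← e.tsum_eq, ← tsum_mul_left]
  refine tsum_congr fun x ↦ ?_
  simp only [e, Equiv.subtypeEquiv_apply, Equiv.neg_apply, eisSummand, Pi.neg_apply,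
    Int.cast_neg, _root_.zpow_neg, zpow_natCast]
  rw [show -((x.1 0 : ℤ) : ℂ) * z + -((x.1 1 : ℤ) : ℂ) =
    -1 * (((x.1 0 : ℤ) : ℂ) * z + ((x.1 1 : ℤ) : ℂ)) by ring, mul_pow, mul_inv]
  congr 1
  rcases neg_one_pow_eq_or ℂ k with h | h <;> simp [h]

theorem hasSum_sq_geom {w : ℂ} (hw : ‖w‖ < 1) :
    HasSum (fun m : ℕ ↦ (m : ℂ) ^ 2 * w ^ m) (eisR 3 w) := by
  have h0 := hasSum_choose_mul_geometric_of_norm_lt_one 0 hw
  have h1 := hasSum_choose_mul_geometric_of_norm_lt_one 1 hw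
  have h2 := hasSum_choose_mul_geometric_of_norm_lt_one 2 hw
  have h := ((h2.mul_left 2).sub (h1.mul_left 3)).add h0
  have hw1 : 1 - w ≠ 0 := by
    intro h; rw [sub_eq_zero] at h; simp [← h] at hw
  have hv : eisR 3 w = 2 * (1 / (1 - w) ^ (2 + 1)) - 3 * (1 / (1 - w) ^ (1 + 1)) +
      1 / (1 - w) ^ (0 + 1) := by
    rw [eisR, if_pos rfl]
    field_simp
    ring
  rw [hv]
  refine h.congr_fun fun m ↦ ?_
  rw [Nat.cast_choose_two]
  simp only [Nat.choose_one_right, Nat.choose_zero_right]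
  push_cast
  ring

theorem hasSum_cube_geom {w : ℂ} (hw : ‖w‖ < 1) :
    HasSum (fun m : ℕ ↦ (m : ℂ) ^ 3 * w ^ m) (eisR 4 w) := by
  have h0 := hasSum_choose_mul_geometric_of_norm_lt_one 0 hw
  have h1 := hasSum_choose_mul_geometric_of_norm_lt_one 1 hw
  have h2 := hasSum_choose_mul_geometric_of_norm_lt_one 2 hw
  have h3 := hasSum_choose_mul_geometric_of_norm_lt_one 3 hw
  have h := (((h3.mul_left 6).sub (h2.mul_left 12)).add (h1.mul_left 7)).sub h0
  have hw1 : 1 - w ≠ 0 := by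
    intro h; rw [sub_eq_zero] at h; simp [← h] at hw
  have hv : eisR 4 w = 6 * (1 / (1 - w) ^ (3 + 1)) - 12 * (1 / (1 - w) ^ (2 + 1)) +
      7 * (1 / (1 - w) ^ (1 + 1)) - 1 / (1 - w) ^ (0 + 1) := by
    rw [eisR, if_neg (show ¬(4 : ℕ) = 3 by norm_num)]
    field_simp
    ring
  rw [hv]
  refine h.congr_fun fun m ↦ ?_
  · have hc : ((m + 3).choose 3 : ℂ) * 6 = ((m : ℂ) + 3) * (m + 2) * (m + 1) := by
      have := Nat.descFactorial_eq_factorial_mul_choose (m + 3) 3
      simp [Nat.descFactorial_succ, Nat.factorial] at this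
      have h' : ((m + 3).choose 3 : ℕ) * 6 = (m + 3) * (m + 2) * (m + 1) := by
        rw [mul_comm, ← this]; ring
      exact_mod_cast h'
    rw [Nat.cast_choose_two]
    simp only [Nat.choose_one_right, Nat.choose_zero_right]
    push_cast
    linear_combination -(w ^ m) * hc

theorem hasSum_pow_geom {k : ℕ} (hk : k = 3 ∨ k = 4) {w : ℂ} (hw : ‖w‖ < 1) :
    HasSum (fun m : ℕ ↦ (m : ℂ) ^ (k - 1) * w ^ m) (eisR k w) := by
  rcases hk with rfl | rfl
  exacts [hasSum_sq_geom hw, hasSum_cube_geom hw]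

/-- The constant in the Lipschitz summation formula. -/
def lipConst (k : ℕ) : ℂ := (-2 * π * Complex.I) ^ k / (k - 1)!

theorem tsum_row {k : ℕ} (hk : k = 3 ∨ k = 4) (w : ℍ) :
    ∑' e : ℤ, ((w : ℂ) + e) ^ (-(k : ℤ)) =
      lipConst k * ∑' m : ℕ, (m : ℂ) ^ (k - 1) * Complex.exp (2 * π * Complex.I * w) ^ m := by
  obtain ⟨j, rfl⟩ : ∃ j, k = j + 1 := ⟨k - 1, by omega⟩
  have h := EisensteinSeries.qExpansion_identity (k := j) (by omega) w
  simp only [lipConst, Nat.add_sub_cancel, _root_.zpow_neg, zpow_natCast]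
  simpa only [one_div] using h

theorem summable_row {k : ℕ} (hk : k = 3 ∨ k = 4) (w : ℂ) :
    Summable fun e : ℤ ↦ (w + e) ^ (-(k : ℤ)) := by
  simpa [_root_.zpow_neg] using linear_right_summable w 1 (k := k) (by omega)

/-- Lipschitz summation on the real axis away from the integers. -/
theorem tsum_row_real {k : ℕ} (hk : k = 3 ∨ k = 4) {x : ℝ} (hx : ∀ n : ℤ, (x : ℂ) + n ≠ 0) :
    ∑' e : ℤ, ((x : ℂ) + e) ^ (-(k : ℤ)) =
      lipConst k * eisR k (Complex.exp (2 * π * Complex.I * x)) := by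
  set w := Complex.exp (2 * π * Complex.I * x) with hw
  have hw1 : 1 - w ≠ 0 := by
    rw [sub_ne_zero, ne_comm, hw, Ne, Complex.exp_eq_one_iff]
    rintro ⟨n, hn⟩
    apply hx (-n)
    have h2 : (2 * π * Complex.I : ℂ) * (x - n) = 0 := by linear_combination hn
    have h3 := (mul_eq_zero.mp h2).resolve_left (by simp [Real.pi_ne_zero])
    push_cast
    linear_combination h3
  have hL : Tendsto (fun ε : ℝ ↦ ∑' e : ℤ, ((x : ℂ) + ε * Complex.I + e) ^ (-(k : ℤ)))
      (𝓝[>] 0) (𝓝 (∑' e : ℤ, ((x : ℂ) + e) ^ (-(k : ℤ)))) := by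
    refine tendsto_tsum_of_dominated_convergence
      (bound := fun e : ℤ ↦ ‖((x : ℂ) + e) ^ (-(k : ℤ))‖) (summable_row hk _).norm
      (fun e ↦ ?_) (Eventually.of_forall fun ε e ↦ ?_)
    · have hc : ContinuousAt (fun ε : ℝ ↦ ((x : ℂ) + ε * Complex.I + e) ^ (-(k : ℤ))) 0 := by
        refine ContinuousAt.zpow₀ (by fun_prop) _ (Or.inl ?_)
        simpa using hx e
      have := hc.tendsto.mono_left (nhdsWithin_le_nhds (s := Set.Ioi (0 : ℝ)))
      simpa using this
    · simp only [_root_.zpow_neg, zpow_natCast, norm_inv, norm_pow]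
      refine inv_anti₀ (pow_pos (norm_pos_iff.mpr (hx e)) k) (pow_le_pow_left₀ (norm_nonneg _) ?_ k)
      have h1 : ((x : ℂ) + e) = (((x + e : ℝ)) : ℂ) := by push_cast; ring
      rw [h1, Complex.norm_real, Real.norm_eq_abs]
      have h2 : (((x : ℂ) + ε * Complex.I + e)).re = x + e := by simp
      rw [← h2]
      exact Complex.abs_re_le_norm _
  have hR : Tendsto
      (fun ε : ℝ ↦ lipConst k * eisR k (Complex.exp (2 * π * Complex.I * (x + ε * Complex.I))))
      (𝓝[>] 0) (𝓝 (lipConst k * eisR k w)) := by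
    have hc : ContinuousAt (fun ε : ℝ ↦
        lipConst k * eisR k (Complex.exp (2 * π * Complex.I * (x + ε * Complex.I)))) 0 := by
      rcases hk with rfl | rfl <;> simp only [eisR, if_pos, if_neg (show ¬(4 : ℕ) = 3 by norm_num)]
        <;> refine ContinuousAt.mul continuousAt_const (ContinuousAt.div (by fun_prop) (by fun_prop) ?_)
        <;> simpa [← hw] using hw1
    have := hc.tendsto.mono_left (nhdsWithin_le_nhds (s := Set.Ioi (0 : ℝ)))
    simpa [← hw] using this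
  refine tendsto_nhds_unique (hL.congr' ?_) hR
  filter_upwards [self_mem_nhdsWithin] with ε (hε : (0 : ℝ) < ε)
  let w' : ℍ := ⟨x + ε * Complex.I, by simpa using hε⟩
  have hn : ‖Complex.exp (2 * π * Complex.I * (w' : ℂ))‖ < 1 := by
    simpa [Function.Periodic.qParam] using Function.Periodic.norm_qParam_lt_one one_pos w'.im_pos
  have := tsum_row hk w'
  rw [(hasSum_pow_geom hk hn).tsum_eq] at this
  exact this

variable [hr : Fact r.Prime]

/-- Summand of the double series. -/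
def eisU (k : ℕ) (v : Fin 2 → ZMod r) (z : ℍ) (p : ℤ × ℕ) : ℂ :=
  if p.1 ≠ 0 ∧ (p.1 : ZMod r) = v 0 then
    (p.2 : ℂ) ^ (k - 1) * ((if 0 < p.1 then zpw (zetaC r) (v 1 * (p.2 : ZMod r))
      else (-1) ^ k * zpw (zetaC r) (-(v 1 * (p.2 : ZMod r)))) * 𝕢 r z ^ (p.1.natAbs * p.2))
  else 0

theorem norm_zpw (x : ZMod r) : ‖zpw (zetaC r) x‖ = 1 :=
  Complex.norm_eq_one_of_pow_eq_one
    (by rw [zpw, ← pow_mul, mul_comm, pow_mul, isPrimitiveRoot_zetaC.pow_eq_one, one_pow])
    (NeZero.ne r)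

theorem norm_qr_lt (z : ℍ) : ‖𝕢 r (z : ℂ)‖ < 1 :=
  Function.Periodic.norm_qParam_lt_one (Nat.cast_pos.mpr hr.out.pos) z.im_pos

theorem summable_eisU {k : ℕ} (hk : k = 3 ∨ k = 4) (v : Fin 2 → ZMod r) (z : ℍ) : Summable (eisU k v z) := by
  set t := ‖𝕢 r (z : ℂ)‖ with ht
  have ht1 : t < 1 := norm_qr_lt z
  have ht0 : 0 < t := norm_pos_iff.mpr (Function.Periodic.qParam_ne_zero _)
  have h1 : Summable fun c : ℤ ↦ t ^ c.natAbs :=
    Summable.of_nat_of_neg (by simpa using summable_geometric_of_lt_one ht0.le ht1)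
      (by simpa using summable_geometric_of_lt_one ht0.le ht1)
  have h2 : Summable fun m : ℕ ↦ (m : ℝ) ^ (k - 1) * t ^ m :=
    summable_pow_mul_geometric_of_norm_lt_one (R := ℝ) (k - 1)
      (by rwa [Real.norm_of_nonneg ht0.le])
  refine Summable.of_norm_bounded
    ((h1.mul_of_nonneg h2 (fun c ↦ pow_nonneg ht0.le _) (fun m ↦ by positivity)).mul_left t⁻¹)
    fun ⟨c, m⟩ ↦ ?_
  dsimp only
  by_cases hcond : c ≠ 0 ∧ (c : ZMod r) = v 0
  · rw [eisU, if_pos hcond]
    have hn : ‖if 0 < c then zpw (zetaC r) (v 1 * (m : ZMod r))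
        else (-1) ^ k * zpw (zetaC r) (-(v 1 * (m : ZMod r)))‖ = 1 := by
      split_ifs <;> simp [norm_zpw]
    simp only [norm_mul, norm_pow, Complex.norm_natCast, hn, one_mul, ← ht]
    obtain ⟨a, ha⟩ : ∃ a, c.natAbs = a + 1 := ⟨c.natAbs - 1, by
      have := Int.natAbs_pos.mpr hcond.1; omega⟩
    rcases Nat.eq_zero_or_pos m with rfl | hm
    · simp only [Nat.cast_zero, mul_zero, pow_zero, mul_one]
      rw [zero_pow (by omega : k - 1 ≠ 0), mul_zero, mul_zero]
    · obtain ⟨b, rfl⟩ : ∃ b, m = b + 1 := ⟨m - 1, by omega⟩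
      have hle : a + b + 1 ≤ c.natAbs * (b + 1) := by rw [ha]; nlinarith
      calc ((b + 1 : ℕ) : ℝ) ^ (k - 1) * t ^ (c.natAbs * (b + 1))
          ≤ ((b + 1 : ℕ) : ℝ) ^ (k - 1) * t ^ (a + b + 1) :=
            mul_le_mul_of_nonneg_left (pow_le_pow_of_le_one ht0.le ht1.le hle) (by positivity)
        _ = t⁻¹ * (t ^ c.natAbs * (((b + 1 : ℕ) : ℝ) ^ (k - 1) * t ^ (b + 1))) := by
            rw [ha]; field_simp; ring
  · rw [eisU, if_neg hcond, norm_zero]
    positivity

theorem tsum_eisU_fibre {k : ℕ} (hk : k = 3 ∨ k = 4) (v : Fin 2 → ZMod r) (z : ℍ) (n : ℕ) :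
    HasSum (((fun p : ℤ × ℕ ↦ p.1.natAbs * p.2) ⁻¹' {n}).indicator (eisU k v z))
      ((if n = 0 then 0 else eisCoef k (zetaC r) v n) * 𝕢 r z ^ n) := by
  rcases eq_or_ne n 0 with rfl | hn
  · rw [if_pos rfl, zero_mul]
    convert hasSum_zero with p
    obtain ⟨c, m⟩ := p
    rw [Set.indicator_apply_eq_zero]
    intro hp
    simp only [Set.mem_preimage, Set.mem_singleton_iff, mul_eq_zero, Int.natAbs_eq_zero] at hp
    rcases hp with rfl | rfl
    · simp [eisU]
    · simp [eisU, zero_pow (show k - 1 ≠ 0 by omega)]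
  · rw [if_neg hn]
    let s₁ : Finset (ℤ × ℕ) := n.divisors.image fun m ↦ (((n / m : ℕ) : ℤ), m)
    let s₂ : Finset (ℤ × ℕ) := n.divisors.image fun m ↦ (-((n / m : ℕ) : ℤ), m)
    have hq : ∀ m ∈ n.divisors, 0 < n / m ∧ n / m * m = n := fun m hm ↦
      ⟨Nat.div_pos (Nat.divisor_le hm) (Nat.pos_of_mem_divisors hm),
        Nat.div_mul_cancel (Nat.dvd_of_mem_divisors hm)⟩
    have hdisj : Disjoint s₁ s₂ := by
      rw [Finset.disjoint_left]
      rintro p hp₁ hp₂
      simp only [s₁, s₂, Finset.mem_image] at hp₁ hp₂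
      obtain ⟨m, hm, rfl⟩ := hp₁
      obtain ⟨m', hm', h⟩ := hp₂
      rw [Prod.mk.injEq] at h
      obtain ⟨h1, rfl⟩ := h
      have := (hq _ hm).1
      omega
    have hval : (eisCoef k (zetaC r) v n) * 𝕢 r z ^ n = ∑ p ∈ s₁ ∪ s₂,
        (((fun p : ℤ × ℕ ↦ p.1.natAbs * p.2) ⁻¹' {n}).indicator (eisU k v z)) p := by
      rw [Finset.sum_union hdisj, Finset.sum_image (fun a _ b _ h ↦ (Prod.mk.injEq .. ▸ h).2),
        Finset.sum_image (fun a _ b _ h ↦ (Prod.mk.injEq .. ▸ h).2), eisCoef, Finset.sum_mul,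
        ← Finset.sum_add_distrib]
      refine Finset.sum_congr rfl fun m hm ↦ ?_
      obtain ⟨h0, h1⟩ := hq m hm
      have h0' : (0 : ℤ) < ((n / m : ℕ) : ℤ) := by exact_mod_cast h0
      have hmem : ∀ q : ℤ, q.natAbs = n / m → (q, m) ∈
          (fun p : ℤ × ℕ ↦ p.1.natAbs * p.2) ⁻¹' {n} := fun q hq' ↦ by
        simp only [Set.mem_preimage, Set.mem_singleton_iff, hq', h1]
      rw [Set.indicator_of_mem (hmem _ (Int.natAbs_natCast _)),
        Set.indicator_of_mem (hmem _ (by rw [Int.natAbs_neg, Int.natAbs_natCast]))]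
      simp only [eisU, Int.natAbs_neg, Int.natAbs_natCast, h1, ne_eq, neg_eq_zero,
        Int.natCast_eq_zero, h0.ne', not_false_iff, true_and, Int.cast_neg, Int.cast_natCast, h0',
        if_true, show ¬(0 : ℤ) < -((n / m : ℕ) : ℤ) by omega, if_false]
      split_ifs <;> ring
    rw [hval]
    refine hasSum_sum_of_ne_finset_zero fun p hp ↦ ?_
    obtain ⟨c, m⟩ := p
    rw [Set.indicator_apply_eq_zero]
    intro hpn
    simp only [Set.mem_preimage, Set.mem_singleton_iff] at hpn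
    exfalso
    apply hp
    have hm : m ∈ n.divisors := Nat.mem_divisors.mpr ⟨⟨c.natAbs, by rw [← hpn]; ring⟩, hn⟩
    have hdiv : n / m = c.natAbs := by
      rw [← hpn, Nat.mul_div_cancel _ (Nat.pos_of_mem_divisors hm)]
    rcases Int.natAbs_eq c with h | h
    · exact Finset.mem_union_left _ (Finset.mem_image.mpr ⟨m, hm, by rw [hdiv, ← h]⟩)
    · exact Finset.mem_union_right _ (Finset.mem_image.mpr ⟨m, hm, by rw [hdiv, ← h]⟩)

/-- The normalising constant of `eisF`. -/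
def eisNorm (r k : ℕ) : ℂ := lipConst k / (r : ℂ) ^ k

theorem eisNorm_ne_zero {k : ℕ} : eisNorm r k ≠ 0 := by
  simp [eisNorm, lipConst, Real.pi_ne_zero, Nat.factorial_ne_zero, hr.out.ne_zero]

theorem exp_eq_zpw (n : ℕ) :
    Complex.exp (2 * π * Complex.I * n / r) = zpw (zetaC r) (n : ZMod r) := by
  rw [zpw_natCast isPrimitiveRoot_zetaC.pow_eq_one, zetaC, ← Complex.exp_nat_mul]
  ring_nf

theorem inner_sum {k : ℕ} (hk : k = 3 ∨ k = 4) {v : Fin 2 → ZMod r} (hv : v ≠ 0) (z : ℍ) (c : ℤ)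
    (hc : (c : ZMod r) = v 0) :
    ∑' e : ℤ, eisSummand k ![c, ((v 1).val : ℤ) + r * e] z = eisNorm r k *
      (if c = 0 then eisR k (zpw (zetaC r) (v 1)) else ∑' m : ℕ, eisU k v z (c, m)) := by
  have hrC : (r : ℂ) ≠ 0 := Nat.cast_ne_zero.mpr hr.out.ne_zero
  set b := (v 1).val with hb
  set x : ℂ := ((c : ℂ) * z + b) / r with hx
  have hterm : ∀ e : ℤ, eisSummand k ![c, (b : ℤ) + r * e] z =
      ((r : ℂ) ^ k)⁻¹ * (x + e) ^ (-(k : ℤ)) := fun e ↦ by
    have : (c : ℂ) * z + (((b : ℤ) + r * e : ℤ) : ℂ) = (r : ℂ) * (x + e) := by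
      rw [hx]; push_cast; field_simp; ring
    simp only [eisSummand, Matrix.cons_val_zero, Matrix.cons_val_one, this, _root_.zpow_neg,
      zpow_natCast, mul_pow, mul_inv]
  rw [tsum_congr hterm, tsum_mul_left]
  have hb1 : (b : ZMod r) = v 1 := ZMod.natCast_zmod_val _
  rcases lt_trichotomy c 0 with hc0 | rfl | hc0
  · -- negative `c`
    rw [if_neg hc0.ne]
    obtain ⟨d, rfl⟩ : ∃ d : ℕ, c = -(d : ℤ) := ⟨c.natAbs, by omega⟩
    have hd : 0 < d := by omega
    let w : ℍ := ⟨-x, by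
      have : x = ((-((d : ℝ)) : ℝ) : ℂ) * z / (r : ℝ) + ((b : ℝ) / r : ℝ) := by
        rw [hx]; push_cast; ring
      rw [this]
      simp [Complex.div_natCast_im]
      have h1' := z.im_pos
      have h2' : (0 : ℝ) < r := Nat.cast_pos.mpr hr.out.pos
      have h3' : (0 : ℝ) < d := Nat.cast_pos.mpr hd
      exact div_neg_of_neg_of_pos (by nlinarith) h2'⟩
    have h1 : ∑' e : ℤ, (x + e) ^ (-(k : ℤ)) =
        (-1) ^ k * ∑' e : ℤ, ((w : ℂ) + e) ^ (-(k : ℤ)) := by
      rw [← tsum_mul_left, ← (Equiv.neg ℤ).tsum_eq (fun e : ℤ ↦ (x + e) ^ (-(k : ℤ)))]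
      refine tsum_congr fun e ↦ ?_
      simp only [Equiv.neg_apply, Int.cast_neg, _root_.zpow_neg, zpow_natCast]
      rw [show x + -(e : ℂ) = -1 * (-x + e) by ring, mul_pow, mul_inv, ← inv_pow, inv_neg_one]
    rw [h1, tsum_row hk, eisNorm]
    have hq : Complex.exp (2 * π * Complex.I * (w : ℂ)) = 𝕢 r z ^ d * zpw (zetaC r) (-v 1) := by
      have hinv : zpw (zetaC r) (-v 1) = (zpw (zetaC r) (v 1))⁻¹ := by
        refine (inv_eq_of_mul_eq_one_right ?_).symm
        rw [← zpw_add isPrimitiveRoot_zetaC.pow_eq_one, add_neg_cancel, zpw, ZMod.val_zero,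
          pow_zero]
      rw [hinv, ← hb1, ← exp_eq_zpw, ← Complex.exp_neg, Function.Periodic.qParam,
        ← Complex.exp_nat_mul, ← Complex.exp_add]
      congr 1
      show 2 * π * Complex.I * -x = _
      rw [hx]; push_cast; field_simp; ring
    have hU : ∀ m : ℕ, eisU k v z (-(d : ℤ), m) =
        (-1) ^ k * ((m : ℂ) ^ (k - 1) * Complex.exp (2 * π * Complex.I * (w : ℂ)) ^ m) := fun m ↦ by
      rw [eisU, if_pos ⟨by simp; omega, hc⟩, if_neg (by simp), Int.natAbs_neg,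
        Int.natAbs_natCast, hq, mul_pow, ← pow_mul, ← zpw_natCast (ζ := zpw (zetaC r) (-v 1))
        (by rw [zpw, ← pow_mul, mul_comm, pow_mul, isPrimitiveRoot_zetaC.pow_eq_one, one_pow]),
        zpw_mul isPrimitiveRoot_zetaC.pow_eq_one, neg_mul]
      ring
    rw [tsum_congr hU, tsum_mul_left]
    ring
  · -- `c = 0`
    rw [if_pos rfl]
    have h0 : v 0 = 0 := by simpa using hc.symm
    have h1 : v 1 ≠ 0 := fun h ↦ hv (funext fun i ↦ by fin_cases i <;> assumption)
    have hxr : x = ((b / r : ℝ) : ℂ) := by rw [hx]; push_cast; ring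
    have hne : ∀ n : ℤ, ((b / r : ℝ) : ℂ) + n ≠ 0 := fun n h ↦ by
      have h2 : (b : ℝ) + n * r = 0 := by
        have h3 : (b / r : ℝ) + n = 0 := by exact_mod_cast h
        have : (r : ℝ) ≠ 0 := Nat.cast_ne_zero.mpr hr.out.ne_zero
        field_simp at h3
        linarith
      have h4 : (b : ℤ) + n * r = 0 := by exact_mod_cast h2
      have h5 := congrArg (fun i : ℤ ↦ (i : ZMod r)) h4
      simp [hb1] at h5
      exact h1 h5
    rw [hxr, tsum_row_real hk hne, eisNorm,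
      show 2 * π * Complex.I * ((b / r : ℝ) : ℂ) = 2 * π * Complex.I * b / r by push_cast; ring,
      exp_eq_zpw, hb1]
    ring
  · -- positive `c`
    rw [if_neg hc0.ne']
    obtain ⟨d, rfl⟩ : ∃ d : ℕ, c = (d : ℤ) := ⟨c.natAbs, by omega⟩
    have hd : 0 < d := by omega
    let w : ℍ := ⟨x, by
      have : x = ((d : ℝ) : ℂ) * z / (r : ℝ) + ((b : ℝ) / r : ℝ) := by
        rw [hx]; push_cast; ring
      rw [this]
      simp [Complex.div_natCast_im]
      have := z.im_pos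
      have : (0 : ℝ) < r := Nat.cast_pos.mpr hr.out.pos
      have : (0 : ℝ) < d := Nat.cast_pos.mpr hd
      positivity⟩
    rw [show x = (w : ℂ) from rfl, tsum_row hk, eisNorm]
    have hq : Complex.exp (2 * π * Complex.I * (w : ℂ)) = 𝕢 r z ^ d * zpw (zetaC r) (v 1) := by
      rw [← hb1, ← exp_eq_zpw, Function.Periodic.qParam, ← Complex.exp_nat_mul,
        ← Complex.exp_add]
      congr 1
      show 2 * π * Complex.I * x = _
      rw [hx]; push_cast; field_simp
    have hU : ∀ m : ℕ, eisU k v z ((d : ℤ), m) =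
        (m : ℂ) ^ (k - 1) * Complex.exp (2 * π * Complex.I * (w : ℂ)) ^ m := fun m ↦ by
      rw [eisU, if_pos ⟨by simp; omega, hc⟩, if_pos hc0, Int.natAbs_natCast, hq, mul_pow,
        ← pow_mul, ← zpw_natCast (ζ := zpw (zetaC r) (v 1))
        (by rw [zpw, ← pow_mul, mul_comm, pow_mul, isPrimitiveRoot_zetaC.pow_eq_one, one_pow]),
        zpw_mul isPrimitiveRoot_zetaC.pow_eq_one]
      ring
    rw [tsum_congr hU]
    ring

/-- The `q`-series of `eisF`. -/
theorem isQSer_eisF {k : ℕ} (hk : k = 3 ∨ k = 4) {v : Fin 2 → ZMod r} (hv : v ≠ 0) :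
    IsQSer r (fun z ↦ eisF k v z / eisNorm r k) (eisP k (zetaC r) v) := by
  intro z
  -- the double sum
  set F : ℤ × ℤ → ℂ := fun p ↦
    if (p.1 : ZMod r) = v 0 ∧ (p.2 : ZMod r) = v 1 then eisSummand k ![p.1, p.2] z else 0 with hF
  have hsum : Summable (fun x : Fin 2 → ℤ ↦ eisSummand k x z) :=
    summable_eisSummand (by omega) z
  have hF1 : HasSum F (eisF k v z) := by
    rw [← (finTwoArrowEquiv ℤ).hasSum_iff]
    have : F ∘ finTwoArrowEquiv ℤ = ({x : Fin 2 → ℤ | (fun i ↦ (x i : ZMod r)) = v}).indicator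
        (fun x ↦ eisSummand k x z) := by
      funext x
      simp only [hF, Function.comp_apply, finTwoArrowEquiv_apply, Set.indicator_apply,
        Set.mem_ofPred_eq]
      have hx : ![x 0, x 1] = x := by funext i; fin_cases i <;> rfl
      simp [funext_iff, Fin.forall_fin_two, hx]
    rw [this, ← hasSum_subtype_iff_indicator]
    exact (hsum.subtype _).hasSum
  have hrow : ∀ c : ℤ, HasSum (fun d ↦ F (c, d))
      (if (c : ZMod r) = v 0 then ∑' e : ℤ, eisSummand k ![c, ((v 1).val : ℤ) + r * e] z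
        else 0) := by
    intro c
    by_cases hc : (c : ZMod r) = v 0
    · rw [if_pos hc]
      have hinj : Function.Injective (fun e : ℤ ↦ ((v 1).val : ℤ) + r * e) := fun a b h ↦ by
        simpa [hr.out.ne_zero] using h
      refine (hinj.hasSum_iff fun d hd ↦ ?_).mp ?_
      · simp only [hF]
        rw [if_neg]
        rintro ⟨-, h⟩
        apply hd
        have h' : ((d - (v 1).val : ℤ) : ZMod r) = 0 := by simp [h]
        obtain ⟨e, he⟩ := (ZMod.intCast_zmod_eq_zero_iff_dvd _ _).mp h'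
        exact ⟨e, by simp only; omega⟩
      · have hs : Summable (fun e : ℤ ↦ eisSummand k ![c, ((v 1).val : ℤ) + r * e] z) := by
          refine hsum.comp_injective (i := fun e : ℤ ↦ ![c, ((v 1).val : ℤ) + r * e]) fun a b h ↦
            hinj ?_
          simpa using congr_fun h 1
        refine hs.hasSum.congr_fun fun e ↦ ?_
        simp [hF, hc]
    · rw [if_neg hc]
      convert hasSum_zero with d
      simp [hF, hc]
  have h1 := (hF1.prod_fiberwise hrow).div_const (eisNorm r k)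
  set T := ∑' p, eisU k v z p with hT
  have hU : HasSum (eisU k v z) T := (summable_eisU hk v z).hasSum
  have hrowU : ∀ c : ℤ, HasSum (fun m ↦ eisU k v z (c, m)) (∑' m, eisU k v z (c, m)) :=
    fun c ↦ ((summable_eisU hk v z).comp_injective
      (i := fun m : ℕ ↦ (c, m)) fun a b h ↦ by simpa using h).hasSum
  have h2 := (hU.prod_fiberwise hrowU).add
    (hasSum_ite_eq (0 : ℤ) (if v 0 = 0 then eisR k (zpw (zetaC r) (v 1)) else 0))
  have heq : ∀ c : ℤ, (if (c : ZMod r) = v 0 then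
        ∑' e : ℤ, eisSummand k ![c, ((v 1).val : ℤ) + r * e] z else 0) / eisNorm r k =
      (∑' m, eisU k v z (c, m)) +
        if c = 0 then (if v 0 = 0 then eisR k (zpw (zetaC r) (v 1)) else 0) else 0 := by
    intro c
    rcases eq_or_ne c 0 with rfl | hc0
    · simp only [eisU, ne_eq, not_true, false_and, if_false, tsum_zero, zero_add, if_true]
      by_cases hc : v 0 = 0
      · have hc' : ((0 : ℤ) : ZMod r) = v 0 := by simp [hc]
        rw [if_pos hc', if_pos hc, inner_sum hk hv z 0 hc', if_pos rfl,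
          mul_div_cancel_left₀ _ eisNorm_ne_zero]
      · rw [if_neg hc, if_neg (by simpa using Ne.symm hc), zero_div]
    · rw [if_neg hc0, add_zero]
      by_cases hc : (c : ZMod r) = v 0
      · rw [if_pos hc, inner_sum hk hv z c hc, if_neg hc0,
          mul_div_cancel_left₀ _ eisNorm_ne_zero]
      · simp [eisU, hc]
  have hTeq := h1.unique (h2.congr_fun heq)
  show HasSum _ (eisF k v z / eisNorm r k)
  rw [hTeq]
  -- regroup by the exponent
  have h3 : HasSum (fun n : ℕ ↦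
      (if n = 0 then 0 else eisCoef k (zetaC r) v n) * 𝕢 r z ^ n) T := by
    have h4 : HasSum (eisU k v z ∘ (Equiv.sigmaFiberEquiv fun p : ℤ × ℕ ↦ p.1.natAbs * p.2)) T :=
      (Equiv.hasSum_iff _).mpr hU
    refine h4.sigma fun n ↦ ?_
    exact hasSum_subtype_iff_indicator.mpr (tsum_eisU_fibre hk v z n)
  refine (h3.add (hasSum_ite_eq (0 : ℕ)
    (if v 0 = 0 then eisR k (zpw (zetaC r) (v 1)) else 0))).congr_fun fun n ↦ ?_
  rw [eisP, PowerSeries.coeff_mk]
  rcases eq_or_ne n 0 with rfl | hn <;> simp [*]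

end Fermat.Agent.EIS

end
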