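import Fermat.Agent.EIS.Upper.Numeric
import Fermat.Agent.EIS.Upper.Norm
import Fermat.Agent.EIS.Upper.Duality

/-!
# The upper bound `#(T / I) ∣ num((p - 1)/12)`
-/

set_option autoImplicit false

noncomputable section

open ModularCurve CuspForm

namespace Fermat.Agent.EIS

variable (p : ℕ) [hp : Fact p.Prime]

/-- An integral cusp form congruent to the Eisenstein series modulo `M > 0` forces
`M ∣ num((p - 1)/12)`. -/
theorem dvd_eisensteinNumerator_of_congr {f : CuspForm (CongruenceSubgroup.Gamma0 p) 2}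
    {a : ℕ → ℤ} {M : ℕ} (hM0 : 0 < M) (ha : ∀ n, ModularFormClass.qCoeff f n = (a n : ℂ))
    (ha0 : a 0 = 0) (hM : ∀ n, n ≠ 0 → (M : ℤ) ∣ a n - sigmaPrime p n) :
    M ∣ eisensteinNumerator p :=
  dvd_eisensteinNumerator_of_congr' hM0 ha ha0 hM fun h2 ↦
    not_mod_eight_seven_of_congr_two ha ha0 fun n hn ↦
      (Int.natCast_dvd_natCast.mpr h2).trans (hM n hn)

/-- A character of the Hecke algebra modulo `M` killing the Eisenstein ideal forces
`M ∣ num((p - 1)/12)`. -/
theorem dvd_eisensteinNumerator (M : ℕ) (χ : ↥(heckeLatticeAlgebra p ∅) →+* ZMod M)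
    (hI : Ideal.map ((latticeRestrictHom p ∅).toRingHom.comp (heckeEvalForms p 2))
      (eisensteinIdeal p) ≤ RingHom.ker χ) :
    M ∣ eisensteinNumerator p := by
  obtain ⟨f, a, ha, ha0, hM⟩ := exists_cuspForm_congr M χ hI
  rcases Nat.eq_zero_or_pos M with rfl | hM0
  · -- a congruence modulo `0` holds modulo `p`, which is impossible
    have h := dvd_eisensteinNumerator_of_congr p hp.out.pos ha ha0 fun n hn ↦
      Dvd.dvd.trans (dvd_zero _) (hM n hn)
    exfalso
    have h1 : p ∣ p - 1 := h.trans (eisensteinNumerator_dvd p)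
    have := Nat.le_of_dvd (Nat.sub_pos_of_lt hp.out.one_lt) h1
    have := hp.out.pos
    omega
  · exact dvd_eisensteinNumerator_of_congr p hM0 ha ha0 hM

end Fermat.Agent.EIS

end
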