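import Fermat.Agent.EIS.TorsionEis
import Fermat.Agent.EIS.Modular
import Mathlib.NumberTheory.ModularForms.Discriminant

/-!
# The weight one forms `hFun v`, quotients of weight 4 by weight 3 torsion Eisenstein series
-/

set_option autoImplicit false
set_option linter.unusedSectionVars false

noncomputable section

open Filter UpperHalfPlane Topology Finset Matrix
open scoped Real MatrixGroups ModularForm Manifold

namespace Fermat.Agent.EIS

local notation "𝕢" => Function.Periodic.qParam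

variable {r : ℕ} [hr : Fact r.Prime]

theorem vecMul_redMat_ne_zero {v : Fin 2 → ZMod r} (hv : v ≠ 0) (γ : SL(2, ℤ)) :
    v ᵥ* redMat r γ ≠ 0 := fun h ↦ hv <| by
  have := congrArg (· ᵥ* redMat r γ⁻¹) h
  simpa [Matrix.vecMul_vecMul, ← redMat_mul, redMat_one] using this

theorem sum_natAbs_Icc (h : ℕ) : ∑ i ∈ Finset.Icc (-(h : ℤ)) h, i.natAbs = h * (h + 1) := by
  induction h with
  | zero => simp
  | succ n ih =>
    have : Finset.Icc (-((n + 1 : ℕ) : ℤ)) ((n + 1 : ℕ) : ℤ) =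
        insert ((n + 1 : ℕ) : ℤ) (insert (-((n + 1 : ℕ) : ℤ)) (Finset.Icc (-(n : ℤ)) n)) := by
      ext i; simp only [Finset.mem_Icc, Finset.mem_insert]; omega
    rw [this, Finset.sum_insert (by simp; omega), Finset.sum_insert (by simp), ih,
      Int.natAbs_neg, Int.natAbs_natCast]
    ring

theorem sum_eisOrd {h : ℕ} (hh : r = 2 * h + 1) :
    ∑ v ∈ (univ : Finset (Fin 2 → ZMod r)).erase 0, eisOrd v = r * (h * (h + 1)) := by
  rw [Finset.sum_erase _ (by simp [eisOrd])]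
  have h1 : ∑ a : ZMod r, a.valMinAbs.natAbs = h * (h + 1) := by
    rw [← sum_natAbs_Icc h]
    refine Finset.sum_nbij' (fun a ↦ a.valMinAbs) (fun i ↦ (i : ZMod r)) (fun a _ ↦ ?_)
      (fun _ _ ↦ mem_univ _) (fun a _ ↦ a.coe_valMinAbs) (fun i hi ↦ ?_) (fun a _ ↦ rfl)
    · simp only [Finset.mem_coe, Finset.mem_Icc]
      have := ZMod.valMinAbs_mem_Ioc a
      simp only [Set.mem_Ioc] at this
      push_cast [hh] at this
      omega
    · simp only [Finset.mem_coe, Finset.mem_Icc] at hi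
      rw [ZMod.valMinAbs_spec]
      refine ⟨rfl, Set.mem_Ioc.mpr ⟨?_, ?_⟩⟩ <;> push_cast [hh] <;> omega
  rw [← (finTwoArrowEquiv (ZMod r)).symm.sum_comp (fun v ↦ eisOrd v),
    Fintype.sum_prod_type_right]
  simp [eisOrd, finTwoArrowEquiv, h1, Finset.card_univ]

variable (hr2 : r ≠ 2)
include hr2

/-- Leading coefficient of the normalised weight three series. -/
theorem tendsto_eisF_div {k : ℕ} (hk : k = 3 ∨ k = 4) {v : Fin 2 → ZMod r} (hv : v ≠ 0) :
    Tendsto (fun z : ℍ ↦ eisF k v z / eisNorm r k / 𝕢 r z ^ eisOrd v) atImInfty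
      (𝓝 (eisLead k (zetaC r) v)) := by
  have h := ((isQSer_eisF hk hv).div_pow fun n hn ↦ coeff_eisP_of_lt (zetaC r) v hn).tendsto
    (Nat.cast_pos.mpr hr.out.pos)
  rwa [show (PowerSeries.mk fun n ↦ (eisP k (zetaC r) v).coeff (n + eisOrd v)).coeff 0 =
    eisLead k (zetaC r) v from coeff_eisShift_zero hr2 k _ v] at h

theorem eisLead_three_ne_zero {v : Fin 2 → ZMod r} (hv : v ≠ 0) :
    eisLead 3 (zetaC r) v ≠ 0 := by
  have h := (constantCoeff_hDen hr2 isPrimitiveRoot_zetaC hv).1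
  rw [← PowerSeries.coeff_zero_eq_constantCoeff_apply, hDen, PowerSeries.coeff_smul,
    coeff_eisShift_zero hr2, smul_eq_mul] at h
  exact right_ne_zero_of_mul h

/-- The weight three series have no zeros on the upper half plane. -/
theorem eisF_three_ne_zero {v : Fin 2 → ZMod r} (hv : v ≠ 0) (z : ℍ) : eisF 3 v z ≠ 0 := by
  obtain ⟨h, hh⟩ := hr.out.odd_of_ne_two hr2
  set s : Finset (Fin 2 → ZMod r) := univ.erase 0 with hs
  have hcard : s.card = r * r - 1 := by simp [hs, sq]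
  set M := h * (h + 1) with hM
  have hwt : 3 * s.card = 12 * M := by
    have : (2 * h + 1) * (2 * h + 1) = 4 * (h * (h + 1)) + 1 := by ring
    rw [hcard, hh, hM, this]; omega
  set P : ℍ → ℂ := fun z ↦ ∏ w ∈ s, (eisF 3 w z / eisNorm r 3) with hP
  set Q : ℍ → ℂ := fun z ↦ P z / ModularForm.discriminant z ^ M with hQ
  have hinv : ∀ γ : SL(2, ℤ), Q ∣[(0 : ℤ)] γ = Q := by
    intro γ
    ext τ
    rw [ModularForm.SL_slash_apply, neg_zero, zpow_zero, mul_one]
    have hd : denom γ τ ≠ 0 := denom_ne_zero γ τ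
    have hΔ : ModularForm.discriminant (γ • τ) =
        denom γ τ ^ (12 : ℤ) * ModularForm.discriminant τ :=
      SlashInvariantForm.slash_action_eqn' CuspForm.discriminant
        (γ := Matrix.SpecialLinearGroup.mapGL ℝ γ) (MonoidHom.mem_range.mpr ⟨γ, rfl⟩) τ
    have hPγ : P (γ • τ) = denom γ τ ^ (3 * s.card) * P τ := by
      simp only [hP, eisF_smul, mul_div_assoc]
      rw [Finset.prod_mul_distrib, Finset.prod_const, ← pow_mul]
      congr 1
      refine Finset.prod_nbij' (fun w ↦ w ᵥ* redMat r γ) (fun w ↦ w ᵥ* redMat r γ⁻¹)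
        ?_ ?_ ?_ ?_ (fun w _ ↦ rfl)
      · exact fun w hw ↦ mem_erase.mpr ⟨vecMul_redMat_ne_zero (mem_erase.mp hw).1 γ, mem_univ _⟩
      · exact fun w hw ↦ mem_erase.mpr ⟨vecMul_redMat_ne_zero (mem_erase.mp hw).1 _, mem_univ _⟩
      · intro w _; simp [Matrix.vecMul_vecMul, ← redMat_mul, redMat_one]
      · intro w _; simp [Matrix.vecMul_vecMul, ← redMat_mul, redMat_one]
    simp only [hQ]
    rw [hPγ, hΔ, hwt, mul_pow, zpow_ofNat, ← pow_mul, mul_div_mul_left _ _ (pow_ne_zero _ hd)]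
  have hr0 : (0 : ℝ) < r := Nat.cast_pos.mpr hr.out.pos
  have hlim : Tendsto Q atImInfty (𝓝 (∏ w ∈ s, eisLead 3 (zetaC r) w)) := by
    have h1 : Tendsto (fun τ : ℍ ↦ ∏ w ∈ s, (eisF 3 w τ / eisNorm r 3 / 𝕢 r τ ^ eisOrd w))
        atImInfty (𝓝 (∏ w ∈ s, eisLead 3 (zetaC r) w)) :=
      tendsto_finsetProd _ fun w hw ↦ tendsto_eisF_div hr2 (Or.inl rfl) (mem_erase.mp hw).1
    have h2 := h1.div (ModularForm.tendsto_atImInfty_tprod_one_sub_eta_q_pow.pow M)
      (by simp)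
    rw [one_pow, div_one] at h2
    refine h2.congr fun τ ↦ ?_
    simp only [Pi.div_apply, hQ, hP]
    rw [Finset.prod_div_distrib (s := s) (g := fun w ↦ 𝕢 (r : ℝ) (τ : ℂ) ^ eisOrd w),
      Finset.prod_pow_eq_pow_sum, sum_eisOrd hh, pow_mul, ModularForm.discriminant_eq_q_prod,
      mul_pow, div_div]
    congr 3
    rw [Function.Periodic.qParam, Function.Periodic.qParam, ← Complex.exp_nat_mul]
    have : (r : ℂ) ≠ 0 := Nat.cast_ne_zero.mpr hr.out.ne_zero
    push_cast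
    field_simp
  have hmd : MDiff Q := by
    have hP' : ∀ w ∈ s, MDiff (fun τ ↦ eisF 3 w τ / eisNorm r 3) := fun w hw ↦
      (isQSer_eisF (Or.inl rfl) (mem_erase.mp hw).1).mdiff hr0
    rw [UpperHalfPlane.mdifferentiable_iff]
    refine DifferentiableOn.div ?_ ?_ fun τ hτ ↦ ?_
    · exact DifferentiableOn.fun_finsetProd fun w hw ↦
        UpperHalfPlane.mdifferentiable_iff.mp (hP' w hw)
    · exact (UpperHalfPlane.mdifferentiable_iff.mp CuspForm.discriminant.holo').pow M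
    · exact pow_ne_zero _ (ModularForm.discriminant_ne_zero _)
  obtain ⟨c, hc⟩ := levelOne_weight_zero_eq_const hinv hmd (hlim.isBigO_one ℝ)
  have hc' : c = ∏ w ∈ s, eisLead 3 (zetaC r) w :=
    tendsto_nhds_unique ((tendsto_const_nhds (x := c)).congr fun τ ↦ (hc τ).symm) hlim
  have hne : Q z ≠ 0 := by
    rw [hc z, hc']
    exact Finset.prod_ne_zero_iff.mpr fun w hw ↦ eisLead_three_ne_zero hr2 (mem_erase.mp hw).1
  simp only [hQ, hP, ne_eq, div_eq_zero_iff, not_or] at hne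
  have := Finset.prod_ne_zero_iff.mp hne.1 v (mem_erase.mpr ⟨hv, mem_univ _⟩)
  exact fun h0 ↦ this (by simp [h0])

omit hr2 in
/-- `r` times the quotient of the normalised weight 4 by the weight 3 series. -/
def hFun (v : Fin 2 → ZMod r) (z : ℍ) : ℂ :=
  (r : ℂ) * (eisF 4 v z / eisNorm r 4) / (eisF 3 v z / eisNorm r 3)

omit hr2 in
theorem hFun_smul (v : Fin 2 → ZMod r) (γ : SL(2, ℤ)) (z : ℍ) :
    hFun v (γ • z) = denom γ z * hFun (v ᵥ* redMat r γ) z := by
  simp only [hFun, eisF_smul]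
  have hd : denom γ z ≠ 0 := denom_ne_zero γ z
  field_simp

omit hr2 in
theorem hFun_neg (v : Fin 2 → ZMod r) (z : ℍ) : hFun (-v) z = -hFun v z := by
  simp only [hFun, eisF_neg]
  field_simp


theorem isQSer_hFun {v : Fin 2 → ZMod r} (hv : v ≠ 0) :
    IsQSer r (hFun v) (hSer (zetaC r) v) := by
  have hr0 : (0 : ℝ) < r := Nat.cast_pos.mpr hr.out.pos
  have h3 := isQSer_eisF (k := 3) (Or.inl rfl) hv
  have h4 := isQSer_eisF (k := 4) (Or.inr rfl) hv
  have hne : ∀ z, eisF 3 v z / eisNorm r 3 ≠ 0 := fun z ↦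
    div_ne_zero (eisF_three_ne_zero hr2 hv z) eisNorm_ne_zero
  have hper : Function.Periodic (hFun v ∘ ofComplex) (r : ℝ) := fun w ↦ by
    have e3 := h3.periodic hr0 w
    have e4 := h4.periodic hr0 w
    simp only [Function.comp_apply] at e3 e4 ⊢
    simp only [hFun, e3, e4]
  have hmd : MDiff (hFun v) := by
    rw [UpperHalfPlane.mdifferentiable_iff]
    exact ((UpperHalfPlane.mdifferentiable_iff.mp (h4.mdiff hr0)).const_mul _).div
      (UpperHalfPlane.mdifferentiable_iff.mp (h3.mdiff hr0)) fun τ _ ↦ hne _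
  have hlim : Tendsto (hFun v) atImInfty
      (𝓝 ((r : ℂ) * eisLead 4 (zetaC r) v / eisLead 3 (zetaC r) v)) := by
    refine (((tendsto_eisF_div hr2 (Or.inr rfl) hv).const_mul (r : ℂ)).div
      (tendsto_eisF_div hr2 (Or.inl rfl) hv) (eisLead_three_ne_zero hr2 hv)).congr fun z ↦ ?_
    simp only [hFun, Pi.div_apply]
    have : 𝕢 (r : ℝ) (z : ℂ) ≠ 0 := Function.Periodic.qParam_ne_zero _
    field_simp
  have hS := isQSer_qExpansion hr0 hper hmd (hlim.isBigO_one ℝ)
  set S := qExpansion (r : ℝ) (hFun v) with hSdef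
  have hmul := (h3.mul hr0 hS).congr (f' := (r : ℂ) • fun z ↦ eisF 4 v z / eisNorm r 4) fun z ↦ by
    simp only [Pi.mul_apply, Pi.smul_apply, smul_eq_mul, hFun]
    rw [mul_div_cancel₀ _ (hne z)]
  have key := hmul.unique hr0 (h4.smul (r : ℂ))
  have hshift : ∀ k, eisP k (zetaC r) v =
      PowerSeries.X ^ eisOrd v * eisShift k (zetaC r) v := fun k ↦ by
    ext n
    rw [PowerSeries.coeff_X_pow_mul']
    split_ifs with hle
    · rw [eisShift, PowerSeries.coeff_mk, Nat.sub_add_cancel hle]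
    · exact coeff_eisP_of_lt _ _ (by omega)
  rw [hshift 3, hshift 4, mul_assoc, ← mul_smul_comm] at key
  have key' := mul_left_cancel₀ (pow_ne_zero _ PowerSeries.X_ne_zero) key
  have hh : S = hSer (zetaC r) v := by
    rw [hSer, PowerSeries.eq_mul_inv_iff_mul_eq
      (constantCoeff_hDen hr2 isPrimitiveRoot_zetaC hv).1, hDen, hNum, mul_comm,
      smul_mul_assoc, key', smul_smul, mul_comm (eisScale _ _)]
  exact hh ▸ hS

theorem hSer_neg {v : Fin 2 → ZMod r} (hv : v ≠ 0) :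
    hSer (zetaC r) (-v) = -hSer (zetaC r) v := by
  have h1 := (isQSer_hFun hr2 (neg_ne_zero.mpr hv)).congr (f' := (-1 : ℂ) • hFun v) fun z ↦ by
    simp [hFun_neg]
  have := h1.unique (Nat.cast_pos.mpr hr.out.pos) ((isQSer_hFun hr2 hv).smul (-1))
  simpa using this

/-- A weight two level one combination, hence zero. -/
theorem sum_hSer_mul_eq_zero {x : ZMod r} (hx : x ≠ 0) :
    ∑ v ∈ (univ : Finset (Fin 2 → ZMod r)).erase 0,
      hSer (zetaC r) v * hSer (zetaC r) (x • v) = 0 := by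
  have hr0 : (0 : ℝ) < r := Nat.cast_pos.mpr hr.out.pos
  set s : Finset (Fin 2 → ZMod r) := univ.erase 0 with hs
  set W : ℍ → ℂ := ∑ v ∈ s, hFun v * hFun (x • v) with hW
  have hsm : ∀ v ∈ s, x • v ≠ 0 := fun v hv h ↦
    (smul_eq_zero.mp h).elim hx (mem_erase.mp hv).1
  have hQ : IsQSer r W (∑ v ∈ s, hSer (zetaC r) v * hSer (zetaC r) (x • v)) :=
    IsQSer.sum s fun v hv ↦
      (isQSer_hFun hr2 (mem_erase.mp hv).1).mul hr0 (isQSer_hFun hr2 (hsm v hv))
  have hinv : ∀ γ : SL(2, ℤ), W ∣[(2 : ℤ)] γ = W := fun γ ↦ by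
    ext z
    rw [ModularForm.SL_slash_apply, hW]
    simp only [Finset.sum_apply, Pi.mul_apply, hFun_smul, Finset.sum_mul]
    refine Finset.sum_nbij' (fun v ↦ v ᵥ* redMat r γ) (fun v ↦ v ᵥ* redMat r γ⁻¹)
      ?_ ?_ ?_ ?_ fun v _ ↦ ?_
    · exact fun w hw ↦ mem_erase.mpr ⟨vecMul_redMat_ne_zero (mem_erase.mp hw).1 γ, mem_univ _⟩
    · exact fun w hw ↦ mem_erase.mpr ⟨vecMul_redMat_ne_zero (mem_erase.mp hw).1 _, mem_univ _⟩
    · intro w _; simp [Matrix.vecMul_vecMul, ← redMat_mul, redMat_one]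
    · intro w _; simp [Matrix.vecMul_vecMul, ← redMat_mul, redMat_one]
    · have hd : denom γ z ≠ 0 := denom_ne_zero γ z
      simp only [Matrix.smul_vecMul, _root_.zpow_neg, zpow_ofNat]
      field_simp
  have h0 := levelOne_weight_two_eq_zero hinv (hQ.mdiff hr0) (hQ.isBoundedAtImInfty hr0)
  rw [h0] at hQ
  exact hQ.unique hr0 isQSer_zero

end Fermat.Agent.EIS

end
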